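import Fermat.Agent.Corollaries.Rel.Defs

/-!
# From ray characters on the places to narrow ray class characters
-/

set_option autoImplicit false

noncomputable section

namespace Fermat.Agent.Cor.Rel

open NumberField IsDedekindDomain
open Fermat.Agent.Cor.Ray Fermat.Agent.Cor.RayN Fermat.Agent.Cor.RayF
open Fermat.Agent.LT (IsRay rayVal divVal divVal_single rayVal_apply)
open Fermat.Agent.CFT.SUnits (ord div idealOf idealOf_add idealOf_zero idealOf_div
  idealOf_injective idealOf_surjective)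
open Fermat.Agent.CFT.Global (cong mem_cong)
open scoped nonZeroDivisors Classical

variable {K : Type} [Field K] [NumberField K]

variable (K) in
/-- divisors and fractional ideals -/
def divEquiv : Multiplicative (HeightOneSpectrum (𝓞 K) →₀ ℤ) ≃* (FractionalIdeal (𝓞 K)⁰ K)ˣ :=
  MulEquiv.ofBijective
    ({ toFun := fun D => idealOf K D.toAdd
       map_one' := idealOf_zero K
       map_mul' := fun _ _ => idealOf_add K _ _ } :
      Multiplicative (HeightOneSpectrum (𝓞 K) →₀ ℤ) →* (FractionalIdeal (𝓞 K)⁰ K)ˣ)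
    ⟨fun _ _ h => Multiplicative.toAdd.injective (idealOf_injective K h), fun I => by
      obtain ⟨D, hD⟩ := idealOf_surjective (R := 𝓞 K) (K := K) I
      exact ⟨Multiplicative.ofAdd D, hD⟩⟩

theorem divEquiv_apply (D : HeightOneSpectrum (𝓞 K) →₀ ℤ) :
    divEquiv K (Multiplicative.ofAdd D) = idealOf K D := rfl

variable (K) in
/-- the divisor of an ideal -/
def divI : (Ideal (𝓞 K))⁰ →* Multiplicative (HeightOneSpectrum (𝓞 K) →₀ ℤ) :=
  (divEquiv K).symm.toMonoidHom.comp (FractionalIdeal.mk0 K)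

theorem divI_eq_iff (I : (Ideal (𝓞 K))⁰) (D : HeightOneSpectrum (𝓞 K) →₀ ℤ) :
    divI K I = Multiplicative.ofAdd D ↔ FractionalIdeal.mk0 K I = idealOf K D := by
  rw [← divEquiv_apply]
  exact (divEquiv K).symm_apply_eq

theorem divI_pI (v : HeightOneSpectrum (𝓞 K)) :
    divI K (pI v) = Multiplicative.ofAdd (Finsupp.single v 1) := by
  rw [divI_eq_iff, idealOf, Finsupp.prod_single_index (zpow_zero _), zpow_one]
  exact Units.ext rfl

theorem divI_span {I : (Ideal (𝓞 K))⁰} {a : 𝓞 K} (hI : (I : Ideal (𝓞 K)) = Ideal.span {a})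
    {x : Kˣ} (hx : (x : K) = algebraMap (𝓞 K) K a) : divI K I = Multiplicative.ofAdd (div x) := by
  rw [divI_eq_iff, idealOf_div]
  apply Units.ext
  rw [coe_toPrincipalIdeal, FractionalIdeal.coe_mk0, hI, hx, FractionalIdeal.coeIdeal_span_singleton]

/-- **(P1) From ray characters on the places to narrow ray class characters.** -/
theorem ofRayStmt (K : Type) [Field K] [NumberField K] : OfRayStmt K := by
  intro p hp S n η hη
  have hp' : Fact p.Prime := ⟨hp⟩
  have : NeZero p := ⟨hp.ne_zero⟩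
  set 𝔪 : Ideal (𝓞 K) := ∏ v ∈ S, v.asIdeal ^ (n + 1) with h𝔪
  have h𝔪0 : 𝔪 ≠ ⊥ := by
    rw [h𝔪]
    exact Finset.prod_ne_zero_iff.mpr fun v _ => pow_ne_zero _ v.ne_bot
  have hdvd : ∀ v : HeightOneSpectrum (𝓞 K), v.asIdeal ∣ 𝔪 ↔ v ∈ S := by
    intro v
    constructor
    · intro h
      have hprime : Prime v.asIdeal := v.prime
      obtain ⟨w, hw, hvw⟩ := (Prime.dvd_finsetProd_iff hprime _).mp (h𝔪 ▸ h)
      have h1 := hprime.dvd_of_dvd_pow hvw
      have h2 : w.asIdeal ≤ v.asIdeal := Ideal.le_of_dvd h1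
      have h3 : w.asIdeal = v.asIdeal := w.isMaximal.eq_of_le v.isPrime.ne_top h2
      have h4 : v = w := HeightOneSpectrum.ext h3.symm
      exact h4 ▸ hw
    · intro hv
      exact (dvd_pow_self _ (Nat.succ_ne_zero n)).trans (Finset.dvd_prod_of_mem _ hv)
  let Φ : (Ideal (𝓞 K))⁰ →* Multiplicative (ZMod p) :=
    (AddMonoidHom.toMultiplicative (divVal S η)).comp (divI K)
  have hΦ : ∀ I D, divI K I = Multiplicative.ofAdd D → Φ I = Multiplicative.ofAdd (divVal S η D) := by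
    intro I D h
    change AddMonoidHom.toMultiplicative (divVal S η) (divI K I) = _
    rw [h]
    rfl
  let ψ : (Ideal (𝓞 K))⁰ →* ℂ :=
    { toFun := fun I => if IsCoprime (I : Ideal (𝓞 K)) 𝔪 then ZMod.stdAddChar (Φ I).toAdd else 0
      map_one' := by
        rw [if_pos (show IsCoprime ((1 : (Ideal (𝓞 K))⁰) : Ideal (𝓞 K)) 𝔪 from isCoprime_one_left),
          map_one, toAdd_one, AddChar.map_zero_eq_one]
      map_mul' := fun I J => by
        have h1 : IsCoprime ((I * J : (Ideal (𝓞 K))⁰) : Ideal (𝓞 K)) 𝔪 ↔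
            IsCoprime (I : Ideal (𝓞 K)) 𝔪 ∧ IsCoprime (J : Ideal (𝓞 K)) 𝔪 := by
          rw [Submonoid.coe_mul]
          exact IsCoprime.mul_left_iff
        by_cases hI : IsCoprime (I : Ideal (𝓞 K)) 𝔪
        · by_cases hJ : IsCoprime (J : Ideal (𝓞 K)) 𝔪
          · rw [if_pos (h1.mpr ⟨hI, hJ⟩), if_pos hI, if_pos hJ, map_mul, toAdd_mul,
              AddChar.map_add_eq_mul]
          · rw [if_neg fun h => hJ (h1.mp h).2, if_neg hJ, mul_zero]
        · rw [if_neg fun h => hI (h1.mp h).1, if_neg hI, zero_mul] }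
  have hψ : ∀ I : (Ideal (𝓞 K))⁰, IsCoprime (I : Ideal (𝓞 K)) 𝔪 →
      ψ I = ZMod.stdAddChar (Φ I).toAdd := fun I hI => if_pos hI
  have hψ0 : ∀ I : (Ideal (𝓞 K))⁰, ¬ IsCoprime (I : Ideal (𝓞 K)) 𝔪 → ψ I = 0 :=
    fun I hI => if_neg hI
  have hpow : ∀ I : (Ideal (𝓞 K))⁰, IsCoprime (I : Ideal (𝓞 K)) 𝔪 → ψ I ^ p = 1 := by
    intro I hI
    rw [hψ I hI, ← AddChar.map_nsmul_eq_pow, nsmul_eq_mul, CharP.cast_eq_zero, zero_mul,
      AddChar.map_zero_eq_one]
  refine ⟨𝔪, ψ, h𝔪0, hdvd, ⟨fun I => ?_, hψ0, fun I a hI ha _ => ?_⟩, hpow, fun v hv => ?_⟩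
  · by_cases hI : IsCoprime (I : Ideal (𝓞 K)) 𝔪
    · exact (Complex.norm_eq_one_of_pow_eq_one (hpow I hI) hp.ne_zero).le
    · rw [hψ0 I hI, norm_zero]
      exact zero_le_one
  · have ha0 : a ≠ 0 := by
      rintro rfl
      apply nonZeroDivisors.coe_ne_zero I
      rw [hI, Ideal.span_singleton_eq_bot.mpr rfl]
      rfl
    have hco : IsCoprime (I : Ideal (𝓞 K)) 𝔪 := by
      rw [Ideal.isCoprime_iff_exists]
      refine ⟨a, ?_, 1 - a, ?_, by ring⟩
      · rw [hI]
        exact Ideal.mem_span_singleton_self a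
      · rw [← neg_sub]
        exact neg_mem ha
    have hx0 : algebraMap (𝓞 K) K a ≠ 0 := by
      rw [Ne, map_eq_zero_iff _ (FaithfulSMul.algebraMap_injective (𝓞 K) K)]
      exact ha0
    rw [hψ I hco, hΦ I _ (divI_span hI (x := Units.mk0 _ hx0) rfl)]
    have h1 := hη (Units.mk0 _ hx0) fun v hv => by
      rw [mem_cong, Units.val_mk0, ← map_one (algebraMap (𝓞 K) K), ← map_sub,
        HeightOneSpectrum.valuation_of_algebraMap]
      have h2 := (v.intValuation_le_pow_iff_mem (a - 1) (n + 1)).mpr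
        (Ideal.le_of_dvd (Finset.dvd_prod_of_mem (fun v : HeightOneSpectrum (𝓞 K) =>
          v.asIdeal ^ (n + 1)) hv) ha)
      exact_mod_cast h2
    rw [rayVal_apply] at h1
    rw [h1, toAdd_one, AddChar.map_zero_eq_one]
  · have hco : IsCoprime ((pI v : (Ideal (𝓞 K))⁰) : Ideal (𝓞 K)) 𝔪 := by
      change IsCoprime v.asIdeal 𝔪
      have h4 : ¬ v.asIdeal ∣ 𝔪 := fun h => hv ((hdvd v).mp h)
      rw [Ideal.dvd_iff_le] at h4
      rw [Ideal.isCoprime_iff_sup_eq]
      have hmax : v.asIdeal.IsMaximal := v.isMaximal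
      refine hmax.out.2 _ (lt_of_le_of_ne le_sup_left fun h5 => h4 ?_)
      rw [h5]
      exact le_sup_right
    rw [hψ _ hco, hΦ _ _ (divI_pI v), divVal_single S η hv, one_smul, toAdd_ofAdd,
      ← AddChar.map_zero_eq_one (ZMod.stdAddChar (N := p)), ZMod.injective_stdAddChar.eq_iff]

end Fermat.Agent.Cor.Rel

end
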