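import Fermat.Agent.Corollaries.Rel.Cond

/-!
# The conductor-discriminant formula for quadratic extensions

`K` any number field, `L/K` of degree `2`, `ψ'` the primitive quadratic character of `L/K`, `𝔣` its
conductor, `S` its infinity type.  `cond_quad`: `|d_L| = |d_K|² N(𝔣)`, the primes dividing `𝔣` are
the ramified primes, and `r₂(L) = 2 r₂(K) + #S`: the number of the real places in `S` is the number
of the real places of `K` which are ramified in `L`.  `gauss_sum_quad`: the Gauss sum of `ψ'` is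
`i^{#S} √N(𝔣)`.
-/

set_option autoImplicit false
set_option linter.unusedSectionVars false

noncomputable section

namespace Fermat.Agent.Cor.Rel

open NumberField IsDedekindDomain NumberField.InfinitePlace
open Fermat.Agent.ClassL Fermat.Agent.Classic.Zeta Fermat.Agent.Cor.Ray Fermat.Agent.Cor.RayN
open Fermat.Agent.Cor.RayF
open scoped nonZeroDivisors Classical ComplexConjugate

variable {K L : Type} [Field K] [NumberField K] [Field L] [NumberField L] [Algebra K L]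

/-! ### The Gamma factors -/

theorem rank_quad (hd : Module.finrank K L = 2) :
    nrRealPlaces L + 2 * nrComplexPlaces L = 2 * nrRealPlaces K + 4 * nrComplexPlaces K := by
  have h2 := card_add_two_mul_card_eq_rank L
  have h3 := card_add_two_mul_card_eq_rank K
  have h4 : Module.finrank ℚ K * 2 = Module.finrank ℚ L := by
    rw [← hd]
    exact Module.finrank_mul_finrank ℚ K L
  omega

theorem gam_L_quad (hd : Module.finrank K L = 2) (s : ℂ) : gam L s =
    Complex.Gammaℝ s ^ (2 * nrRealPlaces K + 4 * nrComplexPlaces K - nrComplexPlaces L) *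
      Complex.Gammaℝ (s + 1) ^ nrComplexPlaces L := by
  have h1 := rank_quad (K := K) (L := L) hd
  have h2 : 2 * nrRealPlaces K + 4 * nrComplexPlaces K - nrComplexPlaces L =
      nrRealPlaces L + nrComplexPlaces L := by omega
  rw [h2, gam, ← Complex.Gammaℝ_mul_Gammaℝ_add_one, mul_pow, pow_add, mul_assoc]

theorem gam_KS_quad (S : Finset (RP K)) (s : ℂ) : gam K s * gamS K S s =
    Complex.Gammaℝ s ^ (2 * nrRealPlaces K + 4 * nrComplexPlaces K -
      (2 * nrComplexPlaces K + S.card)) *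
      Complex.Gammaℝ (s + 1) ^ (2 * nrComplexPlaces K + S.card) := by
  have h1 := card_le S
  have h2 : 2 * nrRealPlaces K + 4 * nrComplexPlaces K - (2 * nrComplexPlaces K + S.card) =
      nrRealPlaces K + (nrRealPlaces K - S.card) + (nrComplexPlaces K + nrComplexPlaces K) := by
    omega
  rw [h2, gam, gamS, ← Complex.Gammaℝ_mul_Gammaℝ_add_one]
  ring

theorem differentiable_G1 (m : ℕ) : Differentiable ℂ fun s => (Complex.Gammaℝ s)⁻¹ ^ m :=
  Complex.differentiable_Gammaℝ_inv.pow m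

theorem differentiable_G2 (m : ℕ) : Differentiable ℂ fun s => (Complex.Gammaℝ (s + 1))⁻¹ ^ m :=
  (Complex.differentiable_Gammaℝ_inv.comp
    (differentiable_id.add_const (1 : ℂ))).pow m

theorem G1_neg_two : (Complex.Gammaℝ (-2))⁻¹ = 0 := by
  rw [inv_eq_zero, Complex.Gammaℝ_eq_zero_iff]
  exact ⟨1, by norm_num⟩

theorem G2_neg_one : (Complex.Gammaℝ (-1 + 1))⁻¹ = 0 := by
  rw [inv_eq_zero, Complex.Gammaℝ_eq_zero_iff]
  exact ⟨0, by norm_num⟩

theorem G_neg_one : (Complex.Gammaℝ (-1))⁻¹ ≠ 0 := by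
  rw [Ne, inv_eq_zero, Complex.Gammaℝ_eq_zero_iff]
  rintro ⟨n, hn⟩
  have h1 : (1 : ℂ) = ((2 * n : ℕ) : ℂ) := by
    push_cast
    linear_combination -hn
  have h2 : 1 = 2 * n := by exact_mod_cast h1
  omega

/-- comparison of the Gamma factors -/
theorem cmp_gamma {X B : ℂ → ℂ} (hX : Differentiable ℂ X) (hB : Differentiable ℂ B)
    (hX1 : X (-1) ≠ 0) (hX2 : X (-2) ≠ 0) {n x y : ℕ} (hx : x ≤ n) (hy : y ≤ n)
    (h : ∀ s : ℂ, 1 < s.re →
      X s * (Complex.Gammaℝ s ^ (n - y) * Complex.Gammaℝ (s + 1) ^ y) =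
        B s * (Complex.Gammaℝ s ^ (n - x) * Complex.Gammaℝ (s + 1) ^ x)) : x = y := by
  have hg : ∀ s : ℂ, 1 < s.re → Complex.Gammaℝ s ≠ 0 := fun s hs =>
    Complex.Gammaℝ_ne_zero_of_re_pos (by linarith)
  have hh : ∀ s : ℂ, 1 < s.re → Complex.Gammaℝ (s + 1) ≠ 0 := fun s hs =>
    Complex.Gammaℝ_ne_zero_of_re_pos (by
      rw [Complex.add_re, Complex.one_re]
      linarith)
  rcases lt_trichotomy x y with hlt | heq | hgt
  · exfalso
    obtain ⟨m, rfl⟩ := Nat.exists_eq_add_of_lt hlt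
    have h1 : (fun s => X s * (Complex.Gammaℝ s)⁻¹ ^ (m + 1)) =
        fun s => B s * (Complex.Gammaℝ (s + 1))⁻¹ ^ (m + 1) := by
      refine eq_of_re_gt (hX.mul (differentiable_G1 _)) (hB.mul (differentiable_G2 _))
        fun s hs => ?_
      have e1 := h s hs
      have e2 : n - x = (n - (x + m + 1)) + (m + 1) := by omega
      rw [e2, pow_add, show x + m + 1 = x + (m + 1) from rfl, pow_add] at e1
      have e3 := hg s hs
      have e4 := hh s hs
      have e5 : X s * Complex.Gammaℝ (s + 1) ^ (m + 1) = B s * Complex.Gammaℝ s ^ (m + 1) := by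
        refine mul_right_cancel₀ (mul_ne_zero (pow_ne_zero (n - (x + (m + 1))) e3)
          (pow_ne_zero x e4)) ?_
        linear_combination e1
      rw [inv_pow, inv_pow, ← div_eq_mul_inv, ← div_eq_mul_inv,
        div_eq_div_iff (pow_ne_zero _ e3) (pow_ne_zero _ e4)]
      exact e5
    have h2 := congrFun h1 (-1)
    beta_reduce at h2
    rw [G2_neg_one, zero_pow (Nat.succ_ne_zero m), mul_zero] at h2
    exact mul_ne_zero hX1 (pow_ne_zero _ G_neg_one) h2
  · exact heq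
  · exfalso
    obtain ⟨m, rfl⟩ := Nat.exists_eq_add_of_lt hgt
    have h1 : (fun s => X s * (Complex.Gammaℝ (s + 1))⁻¹ ^ (m + 1)) =
        fun s => B s * (Complex.Gammaℝ s)⁻¹ ^ (m + 1) := by
      refine eq_of_re_gt (hX.mul (differentiable_G2 _)) (hB.mul (differentiable_G1 _))
        fun s hs => ?_
      have e1 := h s hs
      have e2 : n - y = (n - (y + m + 1)) + (m + 1) := by omega
      rw [e2, pow_add, show y + m + 1 = y + (m + 1) from rfl, pow_add] at e1
      have e3 := hg s hs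
      have e4 := hh s hs
      have e5 : X s * Complex.Gammaℝ s ^ (m + 1) = B s * Complex.Gammaℝ (s + 1) ^ (m + 1) := by
        refine mul_right_cancel₀ (mul_ne_zero (pow_ne_zero (n - (y + (m + 1))) e3)
          (pow_ne_zero y e4)) ?_
        linear_combination e1
      rw [inv_pow, inv_pow, ← div_eq_mul_inv, ← div_eq_mul_inv,
        div_eq_div_iff (pow_ne_zero _ e4) (pow_ne_zero _ e3)]
      exact e5
    have h2 := congrFun h1 (-2)
    beta_reduce at h2
    rw [G1_neg_two, zero_pow (Nat.succ_ne_zero m), mul_zero,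
      show (-2 : ℂ) + 1 = -1 by norm_num] at h2
    exact mul_ne_zero hX2 (pow_ne_zero _ G_neg_one) h2

/-! ### The theorem -/

/-- The conductor-discriminant formula for quadratic extensions, and the root number. -/
theorem cond_quad_aux (hZ : ZetaStmt K L) (hg : IsGalois K L) (hd : Module.finrank K L = 2)
    {𝔪 : Ideal (𝓞 K)} {ψ : (Ideal (𝓞 K))⁰ →* ℂ} (h : IsCharOf L 2 𝔪 ψ)
    {𝔣 : Ideal (𝓞 K)} {ψ' : (Ideal (𝓞 K))⁰ →* ℂ} (hle : 𝔪 ≤ 𝔣) (h' : NRayChar 𝔣 ψ')
    (hag : ∀ I : (Ideal (𝓞 K))⁰, IsCoprime (I : Ideal (𝓞 K)) 𝔪 → ψ I = ψ' I)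
    {S : Finset (RP K)} (hS : HasS 𝔣 ψ' S) {τ : ℂ} (hτ : IsGauss S 𝔣 ψ' τ) :
    (discr L).natAbs = (discr K).natAbs ^ 2 * Ideal.absNorm 𝔣 ∧
      (∀ v : HeightOneSpectrum (𝓞 K), v.asIdeal ∣ 𝔣 ↔ Ram L v) ∧
      nrComplexPlaces L = 2 * nrComplexPlaces K + S.card ∧ rootN S 𝔣 τ = 1 := by
  have hp : Nat.Prime 2 := Nat.prime_two
  have h𝔣 : 𝔣 ≠ ⊥ := fun h0 => h.ne_bot (le_bot_iff.mp (h0 ▸ hle))
  have hpow : ∀ I : (Ideal (𝓞 K))⁰, IsCoprime (I : Ideal (𝓞 K)) 𝔣 → ψ' I ^ 2 = 1 :=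
    fun I hI => pow_prim h hle h' hag hI
  set D : ℝ := |(discr K : ℝ)| * (Ideal.absNorm 𝔣 : ℝ) with hDdef
  have hdK : (0 : ℝ) < |(discr K : ℝ)| := disc_pos K
  have hdL : (0 : ℝ) < |(discr L : ℝ)| := disc_pos L
  have hD : 0 < D := mul_pos hdK (nF_pos' h𝔣)
  have hq : ∃ I : (Ideal (𝓞 K))⁰, IsCoprime (I : Ideal (𝓞 K)) 𝔣 ∧ ψ' I ≠ 1 := by
    obtain ⟨I, hI, hI1⟩ := h.ne_one
    exact ⟨I, isCoprime_mono hle hI, by rwa [← hag I hI]⟩
  obtain ⟨-, hW, Λ, hΛ, hΛ1, hfe⟩ :=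
    funEq_of_gauss (feStmt K) glueStmt (nonVanNStmt K) h𝔣 h' hS hτ hq
  set W : ℂ := rootN S 𝔣 τ with hWdef
  have hW0 : W ≠ 0 := by
    rw [← norm_ne_zero_iff, hW]
    exact one_ne_zero
  set E : ℂ → ℂ := fun s => ∏ P ∈ badPr h.ne_bot,
    (1 - ψ' P.1 * (Ideal.absNorm (P.1 : Ideal (𝓞 K)) : ℂ) ^ (-s)) with hE
  have hEd : Differentiable ℂ E := by
    refine Differentiable.fun_finsetProd fun P _ => ?_
    refine (differentiable_const _).sub (Differentiable.const_mul ?_ _)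
    exact (differentiable_id.neg).const_cpow (Or.inl (by
      exact_mod_cast (Ideal.absNorm_pos_of_nonZeroDivisors P.1).ne'))
  set C : ℝ := |(discr L : ℝ)| / (|(discr K : ℝ)| * D) with hC
  have hC0 : 0 < C := by positivity
  have hCc : (C : ℂ) ≠ 0 := Complex.ofReal_ne_zero.mpr hC0.ne'
  have hdLC : |(discr L : ℝ)| = C * |(discr K : ℝ)| * D := by
    rw [hC]
    field_simp
  have hCd : Differentiable ℂ fun s : ℂ => (C : ℂ) ^ (s / 2) :=
    (differentiable_id.div_const 2).const_cpow (Or.inl hCc)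
  have hBd : Differentiable ℂ fun s => (C : ℂ) ^ (s / 2) * E s * X K s * Λ s :=
    ((hCd.mul hEd).mul differentiable_X).mul hΛ
  have hzL : ∀ s : ℂ, 1 < s.re →
      dedekindZeta L s = dedekindZeta K s * (Ray.Ls ψ' s * E s) := by
    intro s hs
    rw [hZ 2 hp hg hd 𝔪 ψ h s hs, show 2 - 1 = 1 from rfl, Finset.prod_range_one, zero_add,
      pow_one, Ls_induced h.ne_bot h.ray h' hag hs]
  have base : ∀ s : ℂ, 1 < s.re → X L s * (gam K s * gamS K S s) =
      (C : ℂ) ^ (s / 2) * E s * X K s * Λ s * gam L s := by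
    intro s hs
    have e1 : ((|(discr L : ℝ)| : ℝ) : ℂ) ^ (s / 2) = (C : ℂ) ^ (s / 2) *
        ((|(discr K : ℝ)| : ℝ) : ℂ) ^ (s / 2) * (D : ℂ) ^ (s / 2) := by
      rw [hdLC, Complex.ofReal_mul, Complex.mul_cpow_ofReal_nonneg (by positivity)
        (by positivity), Complex.ofReal_mul, Complex.mul_cpow_ofReal_nonneg hC0.le hdK.le]
    rw [X_eq hs, X_eq hs, e1, hzL s hs, hΛ1 s hs]
    ring
  -- the Gamma factors
  have hr := rank_quad (K := K) (L := L) hd
  have hSc := card_le S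
  have hX3 : ∀ s : ℂ, 1 < s.re → X L (1 - s) ≠ 0 := fun s hs => by
    rw [X_one_sub]
    exact X_ne_zero hs
  have hxy : nrComplexPlaces L = 2 * nrComplexPlaces K + S.card := by
    refine cmp_gamma (n := 2 * nrRealPlaces K + 4 * nrComplexPlaces K)
      (differentiable_X (K := L)) hBd ?_ ?_ (by omega) (by omega) fun s hs => ?_
    · have := hX3 2 (by norm_num)
      norm_num at this
      exact this
    · have := hX3 3 (by norm_num)
      norm_num at this
      exact this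
    · rw [← gam_KS_quad, ← gam_L_quad hd]
      exact base s hs
  have hgam : ∀ s, gam L s = gam K s * gamS K S s := fun s => by
    rw [gam_KS_quad, gam_L_quad hd, hxy]
  have star : X L = fun s => (C : ℂ) ^ (s / 2) * E s * X K s * Λ s := by
    refine eq_of_re_gt differentiable_X hBd fun s hs => ?_
    have e1 := base s hs
    rw [← hgam s] at e1
    exact mul_right_cancel₀ (gam_ne_zero_base (by linarith)) e1
  have star' : ∀ s, X L s = (C : ℂ) ^ (s / 2) * E s * X K s * Λ s := fun s => congrFun star s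
  -- the functional equation
  have hXc : ∀ {F : Type} [Field F] [NumberField F] (s : ℂ), conj (X F (1 - conj s)) = X F s := by
    intro F _ _ s
    have e1 : 1 - conj s = conj (1 - s) := by rw [map_sub, map_one]
    rw [e1, X_conj, Complex.conj_conj, X_one_sub]
  have hPd0 : ∀ s : ℂ, 1 < s.re → Λ s ≠ 0 := by
    intro s hs
    rw [hΛ1 s hs]
    refine mul_ne_zero (mul_ne_zero (ofReal_cpow_ne_zero hD _) (gamS_ne_zero S (by linarith))) ?_
    exact Psi.Lp_ne_zero h'.norm_le hs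
  have hconjC : ∀ s : ℂ, conj ((C : ℂ) ^ ((1 - conj s) / 2)) = (C : ℂ) ^ ((1 - s) / 2) := by
    intro s
    rw [conj_ofReal_cpow hC0.le, map_div₀, map_sub, map_one, Complex.conj_conj, conj_two]
  have star2 : (fun s => (C : ℂ) ^ ((1 - s) / 2) * conj (E (1 - conj s))) =
      fun s => W * (C : ℂ) ^ (s / 2) * E s := by
    refine eq_of_re_gt ?_ ((hCd.const_mul W).mul hEd) fun s hs => ?_
    · refine Differentiable.mul ?_ (Glue.differentiable_star hEd)
      exact ((differentiable_const (1 : ℂ)).sub differentiable_id).div_const 2 |>.const_cpow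
        (Or.inl hCc)
    · have e1 := congrArg conj (star' (1 - conj s))
      rw [hXc, map_mul, map_mul, map_mul, hconjC, hXc] at e1
      have e2 := star' s
      rw [hfe s] at e2
      have e3 : X K s * conj (Λ (1 - conj s)) ≠ 0 := by
        refine mul_ne_zero (X_ne_zero hs) fun h0 => hPd0 s hs ?_
        rw [hfe s, h0, mul_zero]
      refine mul_right_cancel₀ e3 ?_
      linear_combination e2 - e1
  have star3 : ∀ s, (C : ℂ) ^ ((1 - s) / 2) * conj (E (1 - conj s)) = W * (C : ℂ) ^ (s / 2) * E s :=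
    fun s => congrFun star2 s
  have hN2 : ∀ P : Pr K, 2 ≤ Ideal.absNorm (P.1 : Ideal (𝓞 K)) := by
    intro P
    have h1 : Ideal.absNorm (P.1 : Ideal (𝓞 K)) ≠ 1 := by
      rw [Ne, Ideal.absNorm_eq_one_iff]
      exact (Ideal.isPrime_of_prime P.2).ne_top
    have h2 : 0 < Ideal.absNorm (P.1 : Ideal (𝓞 K)) := Ideal.absNorm_pos_of_nonZeroDivisors P.1
    omega
  -- no Euler factors
  have hzero : ∀ P ∈ badPr h.ne_bot, ψ' P.1 = 0 := by
    intro P hP
    by_contra hne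
    have hn : ‖ψ' P.1‖ = 1 := by
      have hc : IsCoprime ((P.1 : (Ideal (𝓞 K))⁰) : Ideal (𝓞 K)) 𝔣 := by
        by_contra hc
        exact hne (h'.eq_zero P.1 hc)
      exact Complex.norm_eq_one_of_pow_eq_one (hpow P.1 hc) hp.ne_zero
    obtain ⟨s₀, hs₀, hz⟩ := exists_zero hn (hN2 P)
    have e1 : E s₀ = 0 := Finset.prod_eq_zero hP hz
    have e2 := star3 s₀
    rw [e1, mul_zero] at e2
    have e3 : E (1 - conj s₀) = 0 := by
      have := (mul_eq_zero.mp e2).resolve_left (ofReal_cpow_ne_zero hC0 _)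
      exact (map_eq_zero _).mp this
    rw [hE] at e3
    beta_reduce at e3
    obtain ⟨P', hP', e5⟩ := Finset.prod_eq_zero_iff.mp e3
    refine norm_term_lt (h'.norm_le P'.1) (hN2 P') ?_ e5
    rw [Complex.sub_re, Complex.one_re, Complex.conj_re, hs₀, sub_zero]
  have hE1 : ∀ s, E s = 1 := fun s =>
    Finset.prod_eq_one fun P hP => by rw [hzero P hP, zero_mul, sub_zero]
  -- the constant
  have hC1 : C = 1 ∧ W = 1 := by
    have e1 := star3 (1 / 2)
    have e2 := star3 0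
    rw [hE1, hE1, map_one, mul_one, mul_one] at e1 e2
    have e3 : ((1 : ℂ) - 1 / 2) / 2 = (1 / 2) / 2 := by norm_num
    rw [e3] at e1
    have e4 : W = 1 := by
      have h1 : (C : ℂ) ^ ((1 / 2 : ℂ) / 2) ≠ 0 := ofReal_cpow_ne_zero hC0 _
      refine mul_right_cancel₀ h1 ?_
      rw [one_mul]
      exact e1.symm
    rw [e4, one_mul, zero_div, Complex.cpow_zero, sub_zero] at e2
    have e5 : (C : ℂ) ^ (1 / 2 : ℂ) = ((√C : ℝ) : ℂ) := by
      rw [Real.sqrt_eq_rpow, Complex.ofReal_cpow hC0.le]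
      push_cast
      rfl
    rw [e5] at e2
    have e6 : √C = 1 := by exact_mod_cast e2
    exact ⟨Real.sqrt_eq_one.mp e6, e4⟩
  refine ⟨?_, fun v => ⟨fun hv => ?_, fun hv => ?_⟩, hxy, hC1.2⟩
  · rw [hC1.1, one_mul] at hdLC
    have e1 : ((discr L).natAbs : ℝ) = |(discr L : ℝ)| := by
      rw [Nat.cast_natAbs, Int.cast_abs]
    have e2 : ((discr K).natAbs : ℝ) = |(discr K : ℝ)| := by
      rw [Nat.cast_natAbs, Int.cast_abs]
    have e3 : ((discr L).natAbs : ℝ) =
        (((discr K).natAbs ^ 2 * Ideal.absNorm 𝔣 : ℕ) : ℝ) := by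
      push_cast
      rw [e1, e2, hdLC, hDdef]
      ring
    exact_mod_cast e3
  · rw [← h.ram v]
    exact hv.trans (Ideal.dvd_iff_le.mpr hle)
  · rw [← h.ram v] at hv
    by_contra hcon
    have hc : IsCoprime v.asIdeal 𝔣 := isCoprime_of_prime v.isPrime v.ne_bot hcon
    have e1 := hzero (prEquiv K v) ((mem_badPr h.ne_bot _).mpr hv)
    have e2 := hpow (pI v) hc
    have e3 : ψ' (pI v) = 0 := e1
    rw [e3, zero_pow two_ne_zero] at e2
    exact zero_ne_one e2

section Main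

variable (hZ : ZetaStmt K L) (hg : IsGalois K L) (hd : Module.finrank K L = 2)
  {𝔪 : Ideal (𝓞 K)} {ψ : (Ideal (𝓞 K))⁰ →* ℂ} (h : IsCharOf L 2 𝔪 ψ)
  {𝔣 : Ideal (𝓞 K)} {ψ' : (Ideal (𝓞 K))⁰ →* ℂ} (hle : 𝔪 ≤ 𝔣) (h' : NRayChar 𝔣 ψ')
  (hag : ∀ I : (Ideal (𝓞 K))⁰, IsCoprime (I : Ideal (𝓞 K)) 𝔪 → ψ I = ψ' I)
  {S : Finset (RP K)} (hS : HasS 𝔣 ψ' S)

include hZ hg hd h hle h' hag hS

/-- **The conductor-discriminant formula for quadratic extensions** -/
theorem cond_quad (hprim : IsPrimC 𝔣 ψ') : (discr L).natAbs = (discr K).natAbs ^ 2 * Ideal.absNorm 𝔣 ∧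
    (∀ v : HeightOneSpectrum (𝓞 K), v.asIdeal ∣ 𝔣 ↔ Ram L v) ∧
    nrComplexPlaces L = 2 * nrComplexPlaces K + S.card := by
  have h𝔣 : 𝔣 ≠ ⊥ := fun h0 => h.ne_bot (le_bot_iff.mp (h0 ▸ hle))
  obtain ⟨τ, hτ⟩ := gaussStmt K S 𝔣 ψ' ⟨h𝔣, h', hS⟩ hprim
  obtain ⟨h1, h2, h3, -⟩ := cond_quad_aux hZ hg hd h hle h' hag hS hτ
  exact ⟨h1, h2, h3⟩

/-- **The sign of the quadratic Gauss sums of number fields** (Gauss for `ℚ`, Hecke): the Gauss sum
of the primitive quadratic character is `i^{#S} √N(𝔣)`. -/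
theorem gauss_sum_quad {τ : ℂ} (hτ : IsGauss S 𝔣 ψ' τ) :
    τ = Complex.I ^ S.card * ((√(Ideal.absNorm 𝔣 : ℝ) : ℝ) : ℂ) := by
  have h𝔣 : 𝔣 ≠ ⊥ := fun h0 => h.ne_bot (le_bot_iff.mp (h0 ▸ hle))
  obtain ⟨-, -, -, h1⟩ := cond_quad_aux hZ hg hd h hle h' hag hS hτ
  have hN : ((√(Ideal.absNorm 𝔣 : ℝ) : ℝ) : ℂ) ≠ 0 :=
    Complex.ofReal_ne_zero.mpr (Real.sqrt_pos.mpr (nF_pos' h𝔣)).ne'
  have h2 : (-Complex.I) ^ S.card * τ / ((√(Ideal.absNorm 𝔣 : ℝ) : ℝ) : ℂ) = 1 := h1
  rw [div_eq_one_iff_eq hN] at h2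
  rw [← h2, ← mul_assoc, ← mul_pow, mul_neg, Complex.I_mul_I, neg_neg, one_pow, one_mul]

end Main

end Fermat.Agent.Cor.Rel

end
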