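import Fermat.Agent.Corollaries.Rel.Main
import Fermat.Agent.Corollaries.CFT2.Exist
import Fermat.Agent.Corollaries.CFTP.UnrConv
import Fermat.Agent.Corollaries.CFTP.LocAll
import Fermat.Agent.Corollaries.CFTP.ConvKum

/-!
# Quadratic extensions of every number field

`L/K` of degree two, `K` any number field (with real places): `L/K` is the class field of a
quadratic narrow ray class character of `K` whose modulus is divisible exactly by the ramified
primes; hence `ζ_L / ζ_K` is entire.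
-/

set_option autoImplicit false

noncomputable section

namespace Fermat.Agent.Cor.Rel

open NumberField IsDedekindDomain
open Fermat.Agent.ClassL Fermat.Agent.Classic.Zeta Fermat.Agent.Cor.Ray Fermat.Agent.Cor.RayN
open Fermat.Agent.Cor.RayF
open Fermat.Agent.LT (IsRay rayVal divVal divVal_single rayVal_apply toAdd_rayVal_eq_sum)
open Fermat.Agent.CFT.SUnits (ord div div_apply ord_div ord_mul ord_inv)
open Fermat.Agent.CFT.Global (cong mem_cong locPow LocalSymbols cong_anti exists_cong_le_locPow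
  exists_ord_eq_one)
open Fermat.Agent.LT.Tower.Fr
open Fermat.Agent.Frob Fermat.Agent.FrobDensity Fermat.Agent.Minkowski
open Fermat.Agent.Cor.Diff (GK FrobAt)
open Fermat.Agent.Cor.CFTP (C Lev)
open Fermat.Agent.LT.NV (edeg fdeg)
open scoped nonZeroDivisors Classical

lemma ord_zpow {K : Type*} [Field K] [NumberField K] (v : HeightOneSpectrum (𝓞 K)) (x : Kˣ)
    (k : ℤ) : ord v (x ^ k) = k * ord v x := by
  obtain ⟨n, rfl | rfl⟩ := k.eq_nat_or_neg
  · rw [zpow_natCast, Fermat.Agent.CFT.SUnits.ord_pow]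
  · rw [zpow_neg, ord_inv, zpow_natCast, Fermat.Agent.CFT.SUnits.ord_pow, neg_mul]

/-- **Artin reciprocity for quadratic characters of every number field**: `ψ : G_K → ℤ/2`
unramified outside `S` comes from a narrow ray class character with modulus on `S`. -/
theorem reciprocity_two {K : Type} [Field K] [NumberField K] (i : K →+* AlgebraicClosure ℚ)
    {ψ : GK i →* C 2} (lψ : Lev ψ) {S : Finset (HeightOneSpectrum (𝓞 K))}
    (hu : ∀ v, v ∉ S → ∀ A : ValuationSubring (AlgebraicClosure ℚ), Over i A v → ∀ g : GK i,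
      g.1 ∈ A.inertiaSubgroupIn ℚ → ψ g = 1) :
    ∃ (n : ℕ) (η : HeightOneSpectrum (𝓞 K) → ZMod 2),
      (∀ x : Kˣ, (∀ v ∈ S, x ∈ cong v n) → (∀ σ : K →+* ℝ, 0 < σ (x : K)) → rayVal S η x = 1) ∧
      ∀ v, v ∉ S → ∀ g : GK i, FrobAt g v → (ψ g = 1 ↔ η v = 0) := by
  have hζ := Fermat.Agent.CFT.Global2.Unr.isPrimitiveRoot_neg_one' K
  obtain ⟨LS⟩ := Fermat.Agent.CFT.Bridge.nonempty_localSymbols_all K hζ
  obtain ⟨b, α, hα, hψα⟩ := CFTP.ConvKum.exists_kummer hζ i ψ lψ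
  choose π hπ using fun v : HeightOneSpectrum (𝓞 K) => exists_ord_eq_one v
  have hu' : ∀ v, v ∉ S → ∀ A : ValuationSubring (AlgebraicClosure ℚ), Over i A v → ∀ g : GK i,
      g.1 ∈ A.inertiaSubgroupIn ℚ → g.1 α = α := fun v hv A hA g hg =>
    (hψα g).mp (hu v hv A hA g hg)
  set η : HeightOneSpectrum (𝓞 K) → ZMod 2 := fun v => (LS.sym v b (π v)).toAdd with hη
  have key : ∀ v, v ∉ S → ∀ x : Kˣ, (LS.sym v b x).toAdd = ord v x • η v := by
    intro v hv x
    obtain ⟨q, A, hq, hAq, hA⟩ := exists_over i v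
    have hou : ord v (x / π v ^ ord v x) = 0 := by
      have h1 : ord v (π v ^ ord v x) = ord v x := by
        rw [ord_zpow, hπ, mul_one]
      rw [ord_div, h1, sub_self]
    have h2 := CFTP.sym_unit_of_inertia hζ LS hα hA (hu' v hv A hA) hou
    rw [map_div, div_eq_one, map_zpow] at h2
    rw [h2, toAdd_zpow]
  choose m hm using fun v : HeightOneSpectrum (𝓞 K) => exists_cong_le_locPow 2 two_ne_zero v
  refine ⟨S.sup m, η, fun y hy hs => ?_, fun v hv g hg => ?_⟩
  · have hyS : ∀ v ∈ S, y ∈ locPow 2 v := fun v hv =>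
      hm v (cong_anti v (Finset.le_sup hv) (hy v hv))
    set V : Finset (HeightOneSpectrum (𝓞 K)) := S ∪ (div y).support with hV
    have hordV : ∀ v, v ∉ V → ord v y = 0 := by
      intro v hv
      rw [hV, Finset.mem_union, not_or, Finsupp.notMem_support_iff, div_apply] at hv
      exact hv.2
    have h1 := CFT2.sum_sym_eq LS (b := b) (y := y) (U := V) (by
      intro v hv
      have h3 := key v (fun h' => hv (Finset.mem_union_left _ h')) y
      rw [hordV v hv, zero_smul] at h3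
      exact h3)
    have h2 : ∑ σ : K →+* ℝ, HM.sg σ b * HM.sg σ y = 0 := Finset.sum_eq_zero fun σ _ => by
      rw [HM.sg_eq_zero_iff.mpr (hs σ), mul_zero]
    apply toAdd_eq_zero.mp
    rw [toAdd_rayVal_eq_sum S V η y fun v hv _ => by rw [hordV v hv, zero_smul]]
    refine (Finset.sum_congr rfl fun v _ => ?_).trans (h1.trans h2)
    split_ifs with hv
    · rw [LS.sym_eq_one_of_right (hyS v hv), toAdd_one]
    · exact (key v hv y).symm
  · obtain ⟨A, hA, hF⟩ := hg
    rw [hψα g, CFTP.frob_fix_iff_mem_locPow hζ hα hA (hu' v hv A hA) hF, LS.mem_locPow_iff]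
    constructor
    · intro h
      rw [hη]
      exact toAdd_eq_zero.mpr (h (π v))
    · intro h x
      have h1 := key v hv x
      rw [h, smul_zero] at h1
      exact toAdd_eq_zero.mp h1

/-- From ray characters on the places, with conditions at the real places, to narrow ray class
characters. -/
theorem exists_nray (K : Type) [Field K] [NumberField K] {p : ℕ} (hp : p.Prime)
    {S : Finset (HeightOneSpectrum (𝓞 K))} {n : ℕ} {η : HeightOneSpectrum (𝓞 K) → ZMod p}
    (hη : ∀ x : Kˣ, (∀ v ∈ S, x ∈ cong v n) → (∀ σ : K →+* ℝ, 0 < σ (x : K)) →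
      rayVal S η x = 1) :
    ∃ (𝔪 : Ideal (𝓞 K)) (ψ : (Ideal (𝓞 K))⁰ →* ℂ), 𝔪 ≠ ⊥ ∧
      (∀ v : HeightOneSpectrum (𝓞 K), v.asIdeal ∣ 𝔪 ↔ v ∈ S) ∧ NRayChar 𝔪 ψ ∧
      (∀ I : (Ideal (𝓞 K))⁰, IsCoprime (I : Ideal (𝓞 K)) 𝔪 → ψ I ^ p = 1) ∧
      ∀ v : HeightOneSpectrum (𝓞 K), v ∉ S → (ψ (pI v) = 1 ↔ η v = 0) := by
  have hp' : Fact p.Prime := ⟨hp⟩
  have : NeZero p := ⟨hp.ne_zero⟩
  set 𝔪 : Ideal (𝓞 K) := ∏ v ∈ S, v.asIdeal ^ (n + 1) with h𝔪
  have h𝔪0 : 𝔪 ≠ ⊥ := by
    rw [h𝔪]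
    exact Finset.prod_ne_zero_iff.mpr fun v _ => pow_ne_zero _ v.ne_bot
  have hdvd : ∀ v : HeightOneSpectrum (𝓞 K), v.asIdeal ∣ 𝔪 ↔ v ∈ S := by
    intro v
    constructor
    · intro h
      have hprime : Prime v.asIdeal := v.prime
      obtain ⟨w, hw, hvw⟩ := (Prime.dvd_finsetProd_iff hprime _).mp (h𝔪 ▸ h)
      have h1 := hprime.dvd_of_dvd_pow hvw
      have h2 : w.asIdeal ≤ v.asIdeal := Ideal.le_of_dvd h1
      have h3 : w.asIdeal = v.asIdeal := w.isMaximal.eq_of_le v.isPrime.ne_top h2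
      have h4 : v = w := HeightOneSpectrum.ext h3.symm
      exact h4 ▸ hw
    · intro hv
      exact (dvd_pow_self _ (Nat.succ_ne_zero n)).trans (Finset.dvd_prod_of_mem _ hv)
  let Φ : (Ideal (𝓞 K))⁰ →* Multiplicative (ZMod p) :=
    (AddMonoidHom.toMultiplicative (divVal S η)).comp (divI K)
  have hΦ : ∀ I D, divI K I = Multiplicative.ofAdd D → Φ I = Multiplicative.ofAdd (divVal S η D) := by
    intro I D h
    change AddMonoidHom.toMultiplicative (divVal S η) (divI K I) = _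
    rw [h]
    rfl
  let ψ : (Ideal (𝓞 K))⁰ →* ℂ :=
    { toFun := fun I => if IsCoprime (I : Ideal (𝓞 K)) 𝔪 then ZMod.stdAddChar (Φ I).toAdd else 0
      map_one' := by
        rw [if_pos (show IsCoprime ((1 : (Ideal (𝓞 K))⁰) : Ideal (𝓞 K)) 𝔪 from isCoprime_one_left),
          map_one, toAdd_one, AddChar.map_zero_eq_one]
      map_mul' := fun I J => by
        have h1 : IsCoprime ((I * J : (Ideal (𝓞 K))⁰) : Ideal (𝓞 K)) 𝔪 ↔
            IsCoprime (I : Ideal (𝓞 K)) 𝔪 ∧ IsCoprime (J : Ideal (𝓞 K)) 𝔪 := by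
          rw [Submonoid.coe_mul]
          exact IsCoprime.mul_left_iff
        by_cases hI : IsCoprime (I : Ideal (𝓞 K)) 𝔪
        · by_cases hJ : IsCoprime (J : Ideal (𝓞 K)) 𝔪
          · rw [if_pos (h1.mpr ⟨hI, hJ⟩), if_pos hI, if_pos hJ, map_mul, toAdd_mul,
              AddChar.map_add_eq_mul]
          · rw [if_neg fun h => hJ (h1.mp h).2, if_neg hJ, mul_zero]
        · rw [if_neg fun h => hI (h1.mp h).1, if_neg hI, zero_mul] }
  have hψ : ∀ I : (Ideal (𝓞 K))⁰, IsCoprime (I : Ideal (𝓞 K)) 𝔪 →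
      ψ I = ZMod.stdAddChar (Φ I).toAdd := fun I hI => if_pos hI
  have hψ0 : ∀ I : (Ideal (𝓞 K))⁰, ¬ IsCoprime (I : Ideal (𝓞 K)) 𝔪 → ψ I = 0 :=
    fun I hI => if_neg hI
  have hpow : ∀ I : (Ideal (𝓞 K))⁰, IsCoprime (I : Ideal (𝓞 K)) 𝔪 → ψ I ^ p = 1 := by
    intro I hI
    rw [hψ I hI, ← AddChar.map_nsmul_eq_pow, nsmul_eq_mul, CharP.cast_eq_zero, zero_mul,
      AddChar.map_zero_eq_one]
  refine ⟨𝔪, ψ, h𝔪0, hdvd, ⟨fun I => ?_, hψ0, fun I a hI ha hpos => ?_⟩, hpow, fun v hv => ?_⟩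
  · by_cases hI : IsCoprime (I : Ideal (𝓞 K)) 𝔪
    · exact (Complex.norm_eq_one_of_pow_eq_one (hpow I hI) hp.ne_zero).le
    · rw [hψ0 I hI, norm_zero]
      exact zero_le_one
  · have ha0 : a ≠ 0 := by
      rintro rfl
      apply nonZeroDivisors.coe_ne_zero I
      rw [hI, Ideal.span_singleton_eq_bot.mpr rfl]
      rfl
    have hco : IsCoprime (I : Ideal (𝓞 K)) 𝔪 := by
      rw [Ideal.isCoprime_iff_exists]
      refine ⟨a, ?_, 1 - a, ?_, by ring⟩
      · rw [hI]
        exact Ideal.mem_span_singleton_self a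
      · rw [← neg_sub]
        exact neg_mem ha
    have hx0 : algebraMap (𝓞 K) K a ≠ 0 := by
      rw [Ne, map_eq_zero_iff _ (FaithfulSMul.algebraMap_injective (𝓞 K) K)]
      exact ha0
    rw [hψ I hco, hΦ I _ (divI_span hI (x := Units.mk0 _ hx0) rfl)]
    have h1 := hη (Units.mk0 _ hx0) (fun v hv => by
      rw [mem_cong, Units.val_mk0, ← map_one (algebraMap (𝓞 K) K), ← map_sub,
        HeightOneSpectrum.valuation_of_algebraMap]
      have h2 := (v.intValuation_le_pow_iff_mem (a - 1) (n + 1)).mpr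
        (Ideal.le_of_dvd (Finset.dvd_prod_of_mem (fun v : HeightOneSpectrum (𝓞 K) =>
          v.asIdeal ^ (n + 1)) hv) ha)
      exact_mod_cast h2) (fun σ => by
      have hreal : ComplexEmbedding.IsReal (Complex.ofRealHom.comp σ) := by
        rw [ComplexEmbedding.isReal_iff]
        ext x
        simp [ComplexEmbedding.conjugate]
      have hw : InfinitePlace.IsReal (InfinitePlace.mk (Complex.ofRealHom.comp σ)) :=
        ⟨_, hreal, rfl⟩
      have h3 := hpos ⟨_, hw⟩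
      have h4 : RayN.em ⟨_, hw⟩ (a : K) = σ (a : K) := by
        apply Complex.ofReal_injective
        rw [RayN.em, InfinitePlace.embedding_of_isReal_apply,
          InfinitePlace.embedding_mk_eq_of_isReal hreal]
        rfl
      rw [h4] at h3
      exact h3)
    rw [rayVal_apply] at h1
    rw [h1, toAdd_one, AddChar.map_zero_eq_one]
  · have hco : IsCoprime ((pI v : (Ideal (𝓞 K))⁰) : Ideal (𝓞 K)) 𝔪 :=
      isCoprime_of_prime v.isPrime v.ne_bot fun h => hv ((hdvd v).mp h)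
    rw [hψ _ hco, hΦ _ _ (divI_pI v), divVal_single S η hv, one_smul, toAdd_ofAdd,
      ← AddChar.map_zero_eq_one (ZMod.stdAddChar (N := p)), ZMod.injective_stdAddChar.eq_iff]

variable {K : Type} [Field K] [NumberField K] (L : Type) [Field L] [NumberField L] [Algebra K L]
  [IsGalois K L]

/-- **Every quadratic extension of a number field is the class field of a quadratic narrow ray
class character whose modulus is divisible exactly by the ramified primes.** -/
theorem exists_isCharOf_two (hL : Module.finrank K L = 2) :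
    ∃ (𝔪 : Ideal (𝓞 K)) (ψ : (Ideal (𝓞 K))⁰ →* ℂ), IsCharOf L 2 𝔪 ψ := by
  have : Fact (Nat.Prime 2) := ⟨Nat.prime_two⟩
  set S := (finite_ram K L).toFinset with hS
  have hmem : ∀ v, v ∈ S ↔ Ram L v := fun v => by
    rw [hS, Set.Finite.mem_toFinset, Set.mem_ofPred_eq]
  have j₀ : L →ₐ[ℚ] AlgebraicClosure ℚ := IsAlgClosed.lift
  set j : L →+* AlgebraicClosure ℚ := (j₀ : L →+* AlgebraicClosure ℚ) with hj
  clear_value j
  obtain ⟨ψ, lψ, hψ, ⟨g₀, hg₀⟩, hunr⟩ := CFTP.exists_char_of_field (p := 2) (K := K) j hL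
  have he : ∀ w : HeightOneSpectrum (𝓞 L), w.under (𝓞 K) ∉ S → edeg K w = 1 := by
    intro w hw
    by_contra h
    exact hw ((hmem _).mpr ⟨w, rfl, h⟩)
  have hu : ∀ v, v ∉ S → ∀ A : ValuationSubring (AlgebraicClosure ℚ),
      Over (j.comp (algebraMap K L)) A v → ∀ g : GK (j.comp (algebraMap K L)),
        g.1 ∈ A.inertiaSubgroupIn ℚ → ψ g = 1 := by
    intro v hv A hA g hg
    obtain ⟨q, hq, hqv⟩ := exists_prime_mem v
    have hAq : A.LiesOverPrime q := hA.natCast_mem_iff.mp hqv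
    obtain ⟨w, hw⟩ := exists_over_of_liesOver j hq hAq
    have hwv : w.under (𝓞 K) = v := hw.under.unique hA
    exact hunr w A hw (he w (by rwa [hwv])) g hg
  obtain ⟨n, η, hη, hex⟩ := reciprocity_two _ lψ hu
  -- split places
  have hsp : ∀ w : HeightOneSpectrum (𝓞 L), w.under (𝓞 K) ∉ S →
      (fdeg K w = 1 ↔ η (w.under (𝓞 K)) = 0) := by
    intro w hw
    obtain ⟨q, A, hq, hAq, hA⟩ := exists_over j w
    obtain ⟨g, hg⟩ := CFTP.exists_frobAt_over (hA.under (F := K))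
    rw [← hex _ hw g ⟨A, hA.under, hg⟩, hψ g]
    have hin : ∀ τ ∈ A.inertiaSubgroupIn ℚ,
        (∀ x : K, τ (j (algebraMap K L x)) = j (algebraMap K L x)) →
          ∀ x : L, τ (j x) = j x := fun τ hτ hτK =>
      (hψ ⟨τ, hτK⟩).mp (hu _ hw A hA.under ⟨τ, hτK⟩ hτ)
    exact CFTP.fdeg_eq_one_iff hA hin (g := g.1) g.2 hg
  obtain ⟨𝔪, χ, h0, hdiv, hray, hpow, hsplit⟩ := exists_nray K Nat.prime_two hη
  -- a place which does not split
  obtain ⟨v₀, hv₀, hne⟩ : ∃ v, v ∉ S ∧ η v ≠ 0 := by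
    by_contra hcon
    push Not at hcon
    obtain ⟨D, hD, hDv⟩ := Fermat.Agent.Cor.Diff.exists_nat_mem
      (S : Set (HeightOneSpectrum (𝓞 K))) (Finset.finite_toSet _)
    obtain ⟨N, hN, hNψ⟩ := lψ
    obtain ⟨v, φ, k, k', hv, hφ, -, hpow'⟩ := CFTP.exists_frob g₀ N hD
    have hvS : v ∉ S := fun h => hv (hDv v h)
    apply hg₀
    rw [(hpow' ψ hNψ).2, (hex v hvS φ hφ).mpr (hcon v hvS), one_pow]
  refine ⟨𝔪, χ, ⟨h0, hray, fun v => (hdiv v).trans (hmem v), hpow, fun w hw => ?_, ?_⟩⟩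
  · have hw' : w.under (𝓞 K) ∉ S := fun h => hw ((hmem _).mp h)
    exact (hsplit _ hw').trans (hsp w hw').symm
  · refine ⟨pI v₀, ?_, fun h => hne ((hsplit v₀ hv₀).mp h)⟩
    exact isCoprime_of_prime v₀.isPrime v₀.ne_bot fun h => hv₀ ((hdiv v₀).mp h)

/-- **`ζ_L / ζ_K` is entire for every quadratic extension `L/K` of number fields**, without zeros
on `Re s ≥ 1` and with infinitely many zeros in the critical strip; it is the `L`-function of a
quadratic narrow ray class character of `K`. -/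
theorem exists_quot_two (hL : Module.finrank K L = 2) : ∃ F : ℂ → ℂ, Differentiable ℂ F ∧
    (∀ s : ℂ, s ≠ 1 → zetaK L s = zetaK K s * F s) ∧ (∀ s : ℂ, 1 ≤ s.re → F s ≠ 0) ∧
    {s : ℂ | 0 < s.re ∧ s.re < 1 ∧ F s = 0}.Infinite := by
  obtain ⟨𝔪, ψ, h⟩ := exists_isCharOf_two L hL
  exact exists_quot_of (zetaStmt L) Nat.prime_two inferInstance hL h

/-- **`ζ_L(s) = ζ_K(s) L(s, ψ)` for every quadratic extension `L/K` of number fields.** -/
theorem exists_dedekindZeta_eq_two (hL : Module.finrank K L = 2) :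
    ∃ (𝔪 : Ideal (𝓞 K)) (ψ : (Ideal (𝓞 K))⁰ →* ℂ), IsCharOf L 2 𝔪 ψ ∧
      ∀ s : ℂ, 1 < s.re → dedekindZeta L s = dedekindZeta K s * Ray.Ls ψ s := by
  obtain ⟨𝔪, ψ, h⟩ := exists_isCharOf_two L hL
  refine ⟨𝔪, ψ, h, fun s hs => ?_⟩
  have h1 := zetaStmt L 2 Nat.prime_two inferInstance hL 𝔪 ψ h s hs
  simpa using h1

end Fermat.Agent.Cor.Rel

end
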