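import Fermat.Agent.Corollaries.Rel.ClassNum
import Fermat.Agent.Corollaries.Rel.CondQuad
import Fermat.Agent.Corollaries.Rel.Quad

/-!
# Galois extensions of prime degree of number fields: zeta function, discriminant, class number

`K` any number field, `L/K` Galois of any prime degree `p`.

* `exists_isCharOf_all`: `L/K` is the class field of a narrow ray class character `ψ` of order `p`,
  with modulus divisible exactly by the ramified primes;
* `exists_quot_all`: `ζ_L / ζ_K` is entire, without zeros on `Re s ≥ 1`;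
* `exists_conductor_all`: the conductor-discriminant formula `|d_L| = |d_K|^p N(𝔣)^{p - 1}`, and
  `r₂(L) = p r₂(K) + #S`, `S` the infinity type of `ψ`;
* `natAbs_discr_eq_iff_all`: `|d_L| = |d_K|^p` if and only if `L/K` is unramified at all finite
  places;
* `exists_gauss_two`: for `p = 2` the Gauss sum of `ψ` is `i^{#S} √N(𝔣)` (root number `1`);
* `class_number_formula_all`.
-/

set_option autoImplicit false

noncomputable section

namespace Fermat.Agent.Cor.Rel

open NumberField IsDedekindDomain NumberField.InfinitePlace NumberField.Units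
open Fermat.Agent.ClassL Fermat.Agent.Classic.Zeta Fermat.Agent.Cor.Ray Fermat.Agent.Cor.RayN
open Fermat.Agent.Cor.RayF
open scoped nonZeroDivisors Classical Real ComplexConjugate

variable {K : Type} [Field K] [NumberField K] (L : Type) [Field L] [NumberField L] [Algebra K L]
  [IsGalois K L] {p : ℕ}

/-- **Every Galois extension of prime degree of number fields is the class field of a narrow ray
class character of order `p`.** -/
theorem exists_isCharOf_all (hp : p.Prime) (hL : Module.finrank K L = p) :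
    ∃ (𝔪 : Ideal (𝓞 K)) (ψ : (Ideal (𝓞 K))⁰ →* ℂ), IsCharOf L p 𝔪 ψ := by
  by_cases h2 : p = 2
  · subst h2
    exact exists_isCharOf_two L hL
  · exact exists_isCharOf L hp (Or.inl h2) hL

/-- **`ζ_L / ζ_K` is entire** for every Galois extension of prime degree. -/
theorem exists_quot_all (hp : p.Prime) (hL : Module.finrank K L = p) :
    ∃ F : ℂ → ℂ, Differentiable ℂ F ∧
      (∀ s : ℂ, s ≠ 1 → zetaK L s = zetaK K s * F s) ∧ (∀ s : ℂ, 1 ≤ s.re → F s ≠ 0) ∧
      {s : ℂ | 0 < s.re ∧ s.re < 1 ∧ F s = 0}.Infinite := by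
  obtain ⟨𝔪, ψ, h⟩ := exists_isCharOf_all L hp hL
  exact exists_quot_of (zetaStmt L) hp inferInstance hL h

/-- **The conductor-discriminant formula for every Galois extension `L/K` of prime degree `p` of
number fields**: `ψ` is the primitive character of `L/K`, `𝔣` its conductor, `S` its infinity
type. -/
theorem exists_conductor_all (hp : p.Prime) (hL : Module.finrank K L = p) :
    ∃ (𝔣 : Ideal (𝓞 K)) (ψ : (Ideal (𝓞 K))⁰ →* ℂ) (S : Finset (RP K)),
      IsCharOf L p 𝔣 ψ ∧ IsPrimC 𝔣 ψ ∧ HasS 𝔣 ψ S ∧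
      (∀ s : ℂ, 1 < s.re → dedekindZeta L s =
        dedekindZeta K s * ∏ j ∈ Finset.range (p - 1), Ray.Ls (ψ ^ (j + 1)) s) ∧
      (discr L).natAbs = (discr K).natAbs ^ p * Ideal.absNorm 𝔣 ^ (p - 1) ∧
      nrComplexPlaces L = p * nrComplexPlaces K + S.card := by
  obtain ⟨𝔪, ψ, h⟩ := exists_isCharOf_all L hp hL
  obtain ⟨⟨𝔣, ψ'⟩, ⟨hle, h', hprim, hag⟩, -⟩ := exists_unique_primitive h.ne_bot h.ray
  dsimp only at hle h' hprim hag
  have key : ∃ S : Finset (RP K), HasS 𝔣 ψ' S ∧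
      (discr L).natAbs = (discr K).natAbs ^ p * Ideal.absNorm 𝔣 ^ (p - 1) ∧
      (∀ v : HeightOneSpectrum (𝓞 K), v.asIdeal ∣ 𝔣 ↔ Ram L v) ∧
      nrComplexPlaces L = p * nrComplexPlaces K + S.card := by
    by_cases h2 : p = 2
    · subst h2
      obtain ⟨S, hS⟩ := h'.exists_S fun h0 => h.ne_bot (le_bot_iff.mp (h0 ▸ hle))
      obtain ⟨e1, e2, e3⟩ := cond_quad (zetaStmt L) inferInstance hL h hle h' hag hS hprim
      exact ⟨S, hS, by rw [show 2 - 1 = 1 from rfl, pow_one]; exact e1, e2, e3⟩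
    · have hK : p ≠ 2 ∨ IsTotallyComplex K := Or.inl h2
      obtain ⟨hd, hram⟩ := condStmt_of (zetaStmt L) p hp hK inferInstance hL 𝔪 ψ h 𝔣 ψ' hle h'
        hprim hag
      refine ⟨∅, hasS_empty hp hK h' fun I hI => pow_prim h hle h' hag hI, hd, hram, ?_⟩
      rw [Finset.card_empty, add_zero, mul_comm]
      exact (nr_eq (isUnramified_inf hp hK inferInstance hL) inferInstance hL).2
  obtain ⟨S, hS, hd, hram, hr⟩ := key
  have hI : IsCharOf L p 𝔣 ψ' := by
    refine ⟨fun h0 => h.ne_bot (le_bot_iff.mp (h0 ▸ hle)), h', hram,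
      fun I hI => pow_prim h hle h' hag hI, fun w hw => ?_, ?_⟩
    · have hc : IsCoprime (w.under (𝓞 K)).asIdeal 𝔪 :=
        isCoprime_of_prime (w.under (𝓞 K)).isPrime (w.under (𝓞 K)).ne_bot
          fun h1 => hw ((h.ram _).mp h1)
      rw [← hag (pI (w.under (𝓞 K))) hc]
      exact h.split w hw
    · obtain ⟨I, hI, h1⟩ := h.ne_one
      exact ⟨I, isCoprime_mono hle hI, by rwa [← hag I hI]⟩
  exact ⟨𝔣, ψ', S, hI, hprim, hS, zetaStmt L p hp inferInstance hL 𝔣 ψ' hI, hd, hr⟩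

/-- **The root number of a quadratic character is `1`; the sign of the Gauss sum**: for every
quadratic extension `L/K` of number fields the primitive character `ψ` of `L/K` with conductor `𝔣`
and infinity type `S` has the Gauss sum `i^{#S} √N(𝔣)`. -/
theorem exists_gauss_two (hL : Module.finrank K L = 2) :
    ∃ (𝔣 : Ideal (𝓞 K)) (ψ : (Ideal (𝓞 K))⁰ →* ℂ) (S : Finset (RP K)),
      IsCharOf L 2 𝔣 ψ ∧ IsPrimC 𝔣 ψ ∧ HasS 𝔣 ψ S ∧
      IsGauss S 𝔣 ψ (Complex.I ^ S.card * ((√(Ideal.absNorm 𝔣 : ℝ) : ℝ) : ℂ)) := by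
  obtain ⟨𝔣, ψ, S, h, hprim, hS, -⟩ := exists_conductor_all L Nat.prime_two hL
  obtain ⟨τ, hτ⟩ := gaussStmt K S 𝔣 ψ ⟨h.ne_bot, h.ray, hS⟩ hprim
  have h1 := gauss_sum_quad (zetaStmt L) inferInstance hL h le_rfl h.ray (fun _ _ => rfl) hS hτ
  exact ⟨𝔣, ψ, S, h, hprim, hS, h1 ▸ hτ⟩

/-- **`|d_L| = |d_K|^p` if and only if `L/K` is unramified at all finite places.** -/
theorem natAbs_discr_eq_iff_all (hp : p.Prime) (hL : Module.finrank K L = p) :
    (discr L).natAbs = (discr K).natAbs ^ p ↔ ∀ w : HeightOneSpectrum (𝓞 L),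
      (w.under (𝓞 K)).asIdeal.ramificationIdx' w.asIdeal = 1 := by
  obtain ⟨𝔣, ψ, S, h, -, -, -, hd, -⟩ := exists_conductor_all L hp hL
  have h0 := h.ne_bot
  have hram := h.ram
  have h1 : (discr L).natAbs = (discr K).natAbs ^ p ↔ 𝔣 = ⊤ := by
    have hK0 : 0 < (discr K).natAbs ^ p :=
      pow_pos (Int.natAbs_pos.mpr (discr_ne_zero K)) _
    have hp1 : p - 1 ≠ 0 := by
      have := hp.two_le
      omega
    rw [hd, Nat.mul_eq_left hK0.ne', Nat.pow_eq_one, or_iff_left hp1,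
      Ideal.absNorm_eq_one_iff]
  rw [h1]
  constructor
  · intro h w
    by_contra hw
    have h2 := (hram (w.under (𝓞 K))).mpr ⟨w, rfl, hw⟩
    rw [h, ← Ideal.one_eq_top] at h2
    exact (w.under (𝓞 K)).isPrime.ne_top (Ideal.isUnit_iff.mp (isUnit_of_dvd_one h2))
  · intro h
    by_contra hne
    obtain ⟨M, hM, hle⟩ := Ideal.exists_le_maximal 𝔣 hne
    have hMb : M ≠ ⊥ := fun h2 => h0 (le_bot_iff.mp (h2 ▸ hle))
    obtain ⟨w, hw, hw1⟩ := (hram ⟨M, hM.isPrime, hMb⟩).mp (Ideal.dvd_iff_le.mpr hle)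
    apply hw1
    rw [← hw]
    exact h w

/-- **The class number formula for every Galois extension `L/K` of prime degree of number fields**:
`h_L R_L w_K 2^{r₁(L)} (2π)^{r₂(L)} √|d_K| = h_K R_K w_L 2^{r₁(K)} (2π)^{r₂(K)} √|d_L| ∏ L(1, ψ^j)`. -/
theorem class_number_formula_all (hp : p.Prime) (hL : Module.finrank K L = p) :
    ∃ (𝔣 : Ideal (𝓞 K)) (ψ : (Ideal (𝓞 K))⁰ →* ℂ) (Lf : ℕ → ℂ → ℂ),
      IsCharOf L p 𝔣 ψ ∧ IsPrimC 𝔣 ψ ∧
      (∀ j : ℕ, j + 1 < p → Differentiable ℂ (Lf j) ∧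
        (∀ s : ℂ, 1 < s.re → Lf j s = Ray.Ls (ψ ^ (j + 1)) s) ∧
        ∀ s : ℂ, 1 ≤ s.re → Lf j s ≠ 0) ∧
      (∀ s : ℂ, s ≠ 1 → zetaK L s = zetaK K s * ∏ j ∈ Finset.range (p - 1), Lf j s) ∧
      ((classNumber L * regulator L * torsionOrder K *
        (2 ^ nrRealPlaces L * (2 * π) ^ nrComplexPlaces L) * √|(discr K : ℝ)| : ℝ) : ℂ) =
      ((classNumber K * regulator K * torsionOrder L *
        (2 ^ nrRealPlaces K * (2 * π) ^ nrComplexPlaces K) * √|(discr L : ℝ)| : ℝ) : ℂ) *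
          ∏ j ∈ Finset.range (p - 1), Lf j 1 := by
  obtain ⟨𝔣, ψ, S, h, hprim, -, -, -, -⟩ := exists_conductor_all L hp hL
  have h2 : ∀ j : ℕ, ∃ L : ℂ → ℂ, j + 1 < p → Differentiable ℂ L ∧
      (∀ s : ℂ, 1 < s.re → L s = Ray.Ls (ψ ^ (j + 1)) s) ∧ ∀ s : ℂ, 1 ≤ s.re → L s ≠ 0 := by
    intro j
    by_cases hj : j + 1 < p
    · obtain ⟨L, hL⟩ := nonVanNStmt K 𝔣 h.ne_bot _ (h.pow_ray j) (h.pow_ne hp hj)
      exact ⟨L, fun _ => hL⟩
    · exact ⟨0, fun h => absurd h hj⟩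
  choose Lf hLf using h2
  have hlt : ∀ {j : ℕ}, j ∈ Finset.range (p - 1) → j + 1 < p := fun {j} hj => by
    rw [Finset.mem_range] at hj
    omega
  have hz : ∀ s : ℂ, s ≠ 1 → zetaK L s = zetaK K s * ∏ j ∈ Finset.range (p - 1), Lf j s :=
    fun s hs => zetaK_eq_prod hp inferInstance hL h
      (fun j hj => ⟨(hLf j hj).1, (hLf j hj).2.1⟩) hs
  refine ⟨𝔣, ψ, Lf, h, hprim, hLf, hz, ?_⟩
  have hres := residue_eq_mul (K := K) (L := L)
    (F := fun s => ∏ j ∈ Finset.range (p - 1), Lf j s)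
    (Differentiable.fun_finsetProd fun j hj => (hLf j (hlt hj)).1).continuous.continuousAt hz
  beta_reduce at hres
  have hsK : √|(discr K : ℝ)| ≠ 0 := (Real.sqrt_pos.mpr (disc_pos K)).ne'
  have hsL : √|(discr L : ℝ)| ≠ 0 := (Real.sqrt_pos.mpr (disc_pos L)).ne'
  have hwK : (torsionOrder K : ℝ) ≠ 0 := Nat.cast_ne_zero.2 (torsionOrder_pos K).ne'
  have hwL : (torsionOrder L : ℝ) ≠ 0 := Nat.cast_ne_zero.2 (torsionOrder_pos L).ne'
  have e7 : ((classNumber L * regulator L * torsionOrder K *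
      (2 ^ nrRealPlaces L * (2 * π) ^ nrComplexPlaces L) * √|(discr K : ℝ)| : ℝ)) =
      (torsionOrder K * torsionOrder L * √|(discr K : ℝ)| * √|(discr L : ℝ)|) *
        dedekindZeta_residue L := by
    rw [dedekindZeta_residue_def]
    field_simp
  have e8 : ((classNumber K * regulator K * torsionOrder L *
      (2 ^ nrRealPlaces K * (2 * π) ^ nrComplexPlaces K) * √|(discr L : ℝ)| : ℝ)) =
      (torsionOrder K * torsionOrder L * √|(discr K : ℝ)| * √|(discr L : ℝ)|) *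
        dedekindZeta_residue K := by
    rw [dedekindZeta_residue_def]
    field_simp
  rw [e7, e8, Complex.ofReal_mul _ (dedekindZeta_residue L),
    Complex.ofReal_mul _ (dedekindZeta_residue K), hres]
  ring

end Fermat.Agent.Cor.Rel

end
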