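import Fermat.Agent.Corollaries.Rel.Main
import Fermat.Agent.Corollaries.ZetaK.ZetaOne

/-!
# The class number formula for cyclic extensions of prime degree

`K` any number field, `L/K` Galois of prime degree `p`, `p ≠ 2` or `K` totally complex, `ψ` the
primitive ray class character of `L/K`, `𝔣` its conductor (`Rel.Main`).

* `zetaK_eq_prod`: `ζ_L(s) = ζ_K(s) ∏_{1 ≤ j < p} L(s, ψ^j)` for all `s ≠ 1`, for the continuations;
* `class_number_formula`:
  `h_L R_L w_K (2^{r₁} (2π)^{r₂})^{p-1} = h_K R_K w_L (|d_K| N(𝔣))^{(p-1)/2} ∏_{1 ≤ j < p} L(1, ψ^j)`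
  where `r₁`, `r₂` are the numbers of real and complex places of `K`.
-/

set_option autoImplicit false

noncomputable section

namespace Fermat.Agent.Cor.Rel

open NumberField IsDedekindDomain NumberField.InfinitePlace NumberField.Units Filter Topology
open Fermat.Agent.ClassL Fermat.Agent.Classic.Zeta Fermat.Agent.Cor.Ray Fermat.Agent.Cor.RayN
open Fermat.Agent.Cor.RayF
open scoped nonZeroDivisors Classical Real

variable {K L : Type} [Field K] [NumberField K] [Field L] [NumberField L] [Algebra K L] {p : ℕ}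

/-- The numbers of the real and of the complex places. -/
theorem nr_eq (hun : IsUnramifiedAtInfinitePlaces K L) (hg : IsGalois K L)
    (hd : Module.finrank K L = p) :
    nrRealPlaces L = nrRealPlaces K * p ∧ nrComplexPlaces L = nrComplexPlaces K * p := by
  have h1 := IsUnramifiedAtInfinitePlaces.card_infinitePlace K L
  rw [hd, card_eq_nrRealPlaces_add_nrComplexPlaces, card_eq_nrRealPlaces_add_nrComplexPlaces,
    add_mul] at h1
  have h2 := card_add_two_mul_card_eq_rank L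
  have h3 := card_add_two_mul_card_eq_rank K
  have h4 : Module.finrank ℚ K * p = Module.finrank ℚ L := by
    rw [← hd]
    exact Module.finrank_mul_finrank ℚ K L
  rw [← h2, ← h3, add_mul, mul_assoc] at h4
  generalize nrRealPlaces K * p = a at h1 h4 ⊢
  generalize nrComplexPlaces K * p = b at h1 h4 ⊢
  omega

/-- **`ζ_L(s) = ζ_K(s) ∏_{1 ≤ j < p} L(s, ψ^j)`**, for the continuations. -/
theorem zetaK_eq_prod (hp : p.Prime) (hg : IsGalois K L) (hd : Module.finrank K L = p)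
    {𝔪 : Ideal (𝓞 K)} {ψ : (Ideal (𝓞 K))⁰ →* ℂ} (h : IsCharOf L p 𝔪 ψ) {Lf : ℕ → ℂ → ℂ}
    (hLf : ∀ j : ℕ, j + 1 < p → Differentiable ℂ (Lf j) ∧
      ∀ s : ℂ, 1 < s.re → Lf j s = Ray.Ls (ψ ^ (j + 1)) s) {s : ℂ} (hs : s ≠ 1) :
    zetaK L s = zetaK K s * ∏ j ∈ Finset.range (p - 1), Lf j s := by
  obtain ⟨F, hFd, hFe, -, -⟩ := exists_quot_of (zetaStmt L) hp hg hd h
  have hlt : ∀ {j : ℕ}, j ∈ Finset.range (p - 1) → j + 1 < p := fun {j} hj => by
    rw [Finset.mem_range] at hj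
    omega
  have h1 : F = fun s => ∏ j ∈ Finset.range (p - 1), Lf j s := by
    refine eq_of_re_gt hFd (Differentiable.fun_finsetProd fun j hj => (hLf j (hlt hj)).1)
      fun s hs => ?_
    have hs1 : s ≠ 1 := by
      rintro rfl
      norm_num at hs
    refine mul_left_cancel₀ (zetaK_ne_zero (K := K) hs.le hs1) ?_
    rw [← hFe s hs1, zetaK_eq L hs, zetaK_eq K hs, zetaStmt L p hp hg hd 𝔪 ψ h s hs]
    congr 1
    exact Finset.prod_congr rfl fun j hj => ((hLf j (hlt hj)).2 s hs).symm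
  rw [hFe s hs, h1]

omit [Algebra K L] in
/-- the residues -/
theorem residue_eq_mul {F : ℂ → ℂ} (hF : ContinuousAt F 1)
    (h : ∀ s : ℂ, s ≠ 1 → zetaK L s = zetaK K s * F s) :
    (dedekindZeta_residue L : ℂ) = dedekindZeta_residue K * F 1 := by
  have h1 := tendsto_sub_one_mul_zetaK L
  have h2 := (tendsto_sub_one_mul_zetaK K).mul (hF.tendsto.mono_left nhdsWithin_le_nhds)
  refine tendsto_nhds_unique h1 (h2.congr' ?_)
  filter_upwards [self_mem_nhdsWithin] with s hs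
  rw [h s hs]
  ring

variable (L) in
/-- **The class number formula for a Galois extension of prime degree** (`p` odd or `K` totally
complex): `ψ` is the primitive ray class character of `L/K`, `𝔣` its conductor, `Lf j` the entire
function `L(s, ψ^(j+1))`. -/
theorem class_number_formula (hp : p.Prime) (hK : p ≠ 2 ∨ IsTotallyComplex K) (hg : IsGalois K L)
    (hL : Module.finrank K L = p) :
    ∃ (𝔣 : Ideal (𝓞 K)) (ψ : (Ideal (𝓞 K))⁰ →* ℂ) (Lf : ℕ → ℂ → ℂ),
      IsCharOf L p 𝔣 ψ ∧ IsPrimC 𝔣 ψ ∧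
      (∀ j : ℕ, j + 1 < p → Differentiable ℂ (Lf j) ∧
        (∀ s : ℂ, 1 < s.re → Lf j s = Ray.Ls (ψ ^ (j + 1)) s) ∧
        ∀ s : ℂ, 1 ≤ s.re → Lf j s ≠ 0) ∧
      (∀ s : ℂ, s ≠ 1 → zetaK L s = zetaK K s * ∏ j ∈ Finset.range (p - 1), Lf j s) ∧
      ((classNumber L * regulator L * torsionOrder K *
        (2 ^ nrRealPlaces K * (2 * π) ^ nrComplexPlaces K) ^ (p - 1) : ℝ) : ℂ) =
      ((classNumber K * regulator K * torsionOrder L *
        √(|(discr K : ℝ)| * Ideal.absNorm 𝔣) ^ (p - 1) : ℝ) : ℂ) *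
          ∏ j ∈ Finset.range (p - 1), Lf j 1 := by
  obtain ⟨𝔣, ψ, h, hprim, -, hd⟩ := exists_conductor L hp hK hL
  have h2 : ∀ j : ℕ, ∃ L : ℂ → ℂ, j + 1 < p → Differentiable ℂ L ∧
      (∀ s : ℂ, 1 < s.re → L s = Ray.Ls (ψ ^ (j + 1)) s) ∧ ∀ s : ℂ, 1 ≤ s.re → L s ≠ 0 := by
    intro j
    by_cases hj : j + 1 < p
    · obtain ⟨L, hL⟩ := nonVanNStmt K 𝔣 h.ne_bot _ (h.pow_ray j) (h.pow_ne hp hj)
      exact ⟨L, fun _ => hL⟩
    · exact ⟨0, fun h => absurd h hj⟩
  choose Lf hLf using h2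
  have hlt : ∀ {j : ℕ}, j ∈ Finset.range (p - 1) → j + 1 < p := fun {j} hj => by
    rw [Finset.mem_range] at hj
    omega
  have hz : ∀ s : ℂ, s ≠ 1 → zetaK L s = zetaK K s * ∏ j ∈ Finset.range (p - 1), Lf j s :=
    fun s hs => zetaK_eq_prod hp hg hL h (fun j hj => ⟨(hLf j hj).1, (hLf j hj).2.1⟩) hs
  refine ⟨𝔣, ψ, Lf, h, hprim, hLf, hz, ?_⟩
  have hres := residue_eq_mul (K := K) (L := L)
    (F := fun s => ∏ j ∈ Finset.range (p - 1), Lf j s)
    (Differentiable.fun_finsetProd fun j hj => (hLf j (hlt hj)).1).continuous.continuousAt hz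
  beta_reduce at hres
  obtain ⟨e1, e2⟩ := nr_eq (K := K) (L := L) (isUnramified_inf hp hK hg hL) hg hL
  set N : ℝ := (Ideal.absNorm 𝔣 : ℝ) with hN
  have hdK : (0 : ℝ) < |(discr K : ℝ)| := disc_pos K
  have hN0 : 0 < N := nF_pos' h.ne_bot
  have hdL : |(discr L : ℝ)| = |(discr K : ℝ)| ^ p * N ^ (p - 1) := by
    have e3 : ((discr L).natAbs : ℝ) = |(discr L : ℝ)| := by
      rw [Nat.cast_natAbs, Int.cast_abs]
    have e4 : ((discr K).natAbs : ℝ) = |(discr K : ℝ)| := by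
      rw [Nat.cast_natAbs, Int.cast_abs]
    rw [← e3, hd]
    push_cast
    rw [e4]
  have hpp : p = (p - 1) + 1 := (Nat.sub_add_cancel hp.one_le).symm
  have hsq : √|(discr L : ℝ)| = √|(discr K : ℝ)| * √(|(discr K : ℝ)| * N) ^ (p - 1) := by
    have e5 : |(discr K : ℝ)| ^ p * N ^ (p - 1) =
        |(discr K : ℝ)| * (|(discr K : ℝ)| * N) ^ (p - 1) := by
      rw [mul_pow, ← mul_assoc, ← pow_succ', ← hpp]
    have e9 : √((|(discr K : ℝ)| * N) ^ (p - 1)) = √(|(discr K : ℝ)| * N) ^ (p - 1) := by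
      have hX : 0 ≤ |(discr K : ℝ)| * N := by positivity
      conv_lhs => rw [← Real.sq_sqrt hX, ← pow_mul, mul_comm 2, pow_mul]
      exact Real.sqrt_sq (by positivity)
    rw [hdL, e5, Real.sqrt_mul hdK.le, e9]
  have hsK : √|(discr K : ℝ)| ≠ 0 := (Real.sqrt_pos.mpr hdK).ne'
  have hsN : √(|(discr K : ℝ)| * N) ≠ 0 := (Real.sqrt_pos.mpr (mul_pos hdK hN0)).ne'
  have hwK : (torsionOrder K : ℝ) ≠ 0 := Nat.cast_ne_zero.2 (torsionOrder_pos K).ne'
  have hwL : (torsionOrder L : ℝ) ≠ 0 := Nat.cast_ne_zero.2 (torsionOrder_pos L).ne'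
  set A : ℝ := 2 ^ nrRealPlaces K * (2 * π) ^ nrComplexPlaces K with hA
  have hA0 : A ≠ 0 := by positivity
  have hLres : dedekindZeta_residue L = A ^ p * regulator L * classNumber L /
      (torsionOrder L * (√|(discr K : ℝ)| * √(|(discr K : ℝ)| * N) ^ (p - 1))) := by
    rw [dedekindZeta_residue_def, e1, e2, pow_mul, pow_mul, ← mul_pow, ← hsq]
  have hKres : dedekindZeta_residue K = A * regulator K * classNumber K /
      (torsionOrder K * √|(discr K : ℝ)|) := by
    rw [dedekindZeta_residue_def]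
  have e6 : A ^ p = A * A ^ (p - 1) := by
    rw [← pow_succ', ← hpp]
  have e7 : ((classNumber L * regulator L * torsionOrder K * A ^ (p - 1) : ℝ)) =
      (torsionOrder K * torsionOrder L * √|(discr K : ℝ)| * √(|(discr K : ℝ)| * N) ^ (p - 1) *
        A⁻¹) * dedekindZeta_residue L := by
    rw [hLres, e6]
    field_simp
  have e8 : ((classNumber K * regulator K * torsionOrder L *
      √(|(discr K : ℝ)| * N) ^ (p - 1) : ℝ)) =
      (torsionOrder K * torsionOrder L * √|(discr K : ℝ)| * √(|(discr K : ℝ)| * N) ^ (p - 1) *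
        A⁻¹) * dedekindZeta_residue K := by
    rw [hKres]
    field_simp
  rw [e7, e8, Complex.ofReal_mul _ (dedekindZeta_residue L),
    Complex.ofReal_mul _ (dedekindZeta_residue K), hres]
  ring

end Fermat.Agent.Cor.Rel

end
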