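import Fermat.Agent.Corollaries.Rel.Zeta
import Fermat.Agent.Corollaries.RayF.Every
import Fermat.Agent.Corollaries.ZetaK.Conj

/-!
# The conductor-discriminant formula for cyclic extensions of prime degree

`condStmt_of`: `L/K` Galois of prime degree `p`, `p` odd or `K` totally complex, `𝔣` the conductor:
`|d_L| = |d_K|^p N(𝔣)^{p - 1}`, and `𝔣` is divisible exactly by the ramified primes.  Proof:
comparison of the functional equations of `ζ_L`, `ζ_K` and of the Hecke `L`-functions.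
-/

set_option autoImplicit false
set_option linter.unusedSectionVars false

noncomputable section

namespace Fermat.Agent.Cor.Rel

open NumberField IsDedekindDomain NumberField.InfinitePlace
open Fermat.Agent.ClassL Fermat.Agent.Classic.Zeta Fermat.Agent.Cor.Ray Fermat.Agent.Cor.RayN
open Fermat.Agent.Cor.RayF
open scoped nonZeroDivisors Classical ComplexConjugate

variable {K L : Type} [Field K] [NumberField K] [Field L] [NumberField L] [Algebra K L]

/-! ### The Gamma factors -/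

theorem gam_eq_pow {p : ℕ} (hun : IsUnramifiedAtInfinitePlaces K L) (hg : IsGalois K L)
    (hd : Module.finrank K L = p) (s : ℂ) : gam L s = gam K s ^ p := by
  have h1 := IsUnramifiedAtInfinitePlaces.card_infinitePlace K L
  rw [hd, card_eq_nrRealPlaces_add_nrComplexPlaces, card_eq_nrRealPlaces_add_nrComplexPlaces,
    add_mul] at h1
  have h2 := card_add_two_mul_card_eq_rank L
  have h3 := card_add_two_mul_card_eq_rank K
  have h4 : Module.finrank ℚ K * p = Module.finrank ℚ L := by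
    rw [← hd]
    exact Module.finrank_mul_finrank ℚ K L
  rw [← h2, ← h3, add_mul, mul_assoc] at h4
  have e1 : nrComplexPlaces L = nrComplexPlaces K * p := by
    generalize nrRealPlaces K * p = a at h1 h4
    generalize nrComplexPlaces K * p = b at h1 h4 ⊢
    omega
  have e2 : nrRealPlaces L = nrRealPlaces K * p := by
    generalize nrRealPlaces K * p = a at h1 h4 ⊢
    generalize nrComplexPlaces K * p = b at h1 h4
    omega
  rw [gam, gam, e1, e2, mul_pow, ← pow_mul, ← pow_mul]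

theorem isUnramified_inf {p : ℕ} (hp : p.Prime) (hK : p ≠ 2 ∨ IsTotallyComplex K)
    (hg : IsGalois K L) (hd : Module.finrank K L = p) : IsUnramifiedAtInfinitePlaces K L := by
  rcases hK with h | h
  · exact IsUnramifiedAtInfinitePlaces_of_odd_finrank (by
      rw [hd]
      exact hp.odd_of_ne_two h)
  · refine ⟨fun w => ?_⟩
    have h1 : IsComplex (w.comap (algebraMap K L)) := h.isComplex _
    exact isUnramified_iff.mpr (Or.inr h1)

/-! ### The infinity type -/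

theorem eq_one_of_pow {z : ℂ} {a b : ℕ} (hab : Nat.Coprime a b) (ha : z ^ a = 1)
    (hb : z ^ b = 1) : z = 1 := by
  have h6 := Nat.dvd_gcd (orderOf_dvd_of_pow_eq_one ha) (orderOf_dvd_of_pow_eq_one hb)
  rw [hab] at h6
  exact orderOf_eq_one_iff.mp (Nat.dvd_one.mp h6)

theorem hasS_empty {p : ℕ} (hp : p.Prime) (hK : p ≠ 2 ∨ IsTotallyComplex K)
    {𝔣 : Ideal (𝓞 K)} {φ : (Ideal (𝓞 K))⁰ →* ℂ} (h : NRayChar 𝔣 φ)
    (hpow : ∀ I : (Ideal (𝓞 K))⁰, IsCoprime (I : Ideal (𝓞 K)) 𝔣 → φ I ^ p = 1) :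
    HasS 𝔣 φ ∅ := by
  intro a ha h1
  have hc : IsCoprime (Ideal.span {a}) 𝔣 := isCoprime_span_iff.mpr ⟨1, by rwa [one_mul]⟩
  rw [sg_empty, Complex.ofReal_one]
  rcases hK with hp2 | hK
  · have e1 : φ (sp a ha) ^ 2 = 1 := by
      rw [sq, ← map_mul, ← sp_mul ha ha]
      refine h.cong' _ ?_ fun w => ?_
      · have : a * a - 1 = (a + 1) * (a - 1) := by ring
        rw [this]
        exact 𝔣.mul_mem_left _ h1
      · rw [em_mulF]
        exact mul_self_pos.mpr (em_ne_zeroF w ha)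
    exact eq_one_of_pow ((Nat.coprime_primes Nat.prime_two hp).mpr (Ne.symm hp2)) e1
      (hpow (sp a ha) hc)
  · exact h.cong' ha h1 fun w => absurd w.2 (not_isReal_iff_isComplex.mpr (hK.isComplex w.1))

/-! ### The powers of the primitive character -/

section Pow

variable {p : ℕ} {𝔪 𝔣 : Ideal (𝓞 K)} {ψ ψ' : (Ideal (𝓞 K))⁰ →* ℂ}

theorem nRayChar_pow {𝔪 : Ideal (𝓞 K)} {ψ : (Ideal (𝓞 K))⁰ →* ℂ} (h : NRayChar 𝔪 ψ) (j : ℕ) :
    NRayChar 𝔪 (ψ ^ (j + 1)) where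
  norm_le I := by
    rw [MonoidHom.pow_apply, norm_pow]
    exact pow_le_one₀ (norm_nonneg _) (h.norm_le I)
  eq_zero I hI := by
    rw [MonoidHom.pow_apply, h.eq_zero I hI, zero_pow (Nat.succ_ne_zero j)]
  cong I a hI ha hpos := by
    rw [MonoidHom.pow_apply, h.cong I a hI ha hpos, one_pow]

theorem pow_prim (h : IsCharOf L p 𝔪 ψ) (hle : 𝔪 ≤ 𝔣) (h' : NRayChar 𝔣 ψ')
    (hag : ∀ I : (Ideal (𝓞 K))⁰, IsCoprime (I : Ideal (𝓞 K)) 𝔪 → ψ I = ψ' I)
    {I : (Ideal (𝓞 K))⁰} (hI : IsCoprime (I : Ideal (𝓞 K)) 𝔣) : ψ' I ^ p = 1 := by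
  have h𝔣 : 𝔣 ≠ ⊥ := fun h0 => h.ne_bot (le_bot_iff.mp (h0 ▸ hle))
  obtain ⟨J, hJ, hJI⟩ := exists_rep h.ne_bot h𝔣 hI
  have e1 := h'.isMod.psi_eq h𝔣 h' le_rfl (isCoprime_mono hle hJ) hI hJI
  rw [← e1, ← hag J hJ]
  exact h.pow J hJ

theorem coprime_succ (hp : p.Prime) {j : ℕ} (hj : j + 1 < p) : Nat.Coprime (j + 1) p := by
  rw [Nat.coprime_comm, Nat.Prime.coprime_iff_not_dvd hp]
  exact fun h4 => absurd (Nat.le_of_dvd (Nat.succ_pos j) h4) (not_le.mpr hj)

theorem isPrimC_pow (hp : p.Prime) {j : ℕ} (hj : j + 1 < p) (h' : IsPrimC 𝔣 ψ')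
    (hpow : ∀ I : (Ideal (𝓞 K))⁰, IsCoprime (I : Ideal (𝓞 K)) 𝔣 → ψ' I ^ p = 1) :
    IsPrimC 𝔣 (ψ' ^ (j + 1)) := by
  intro 𝔫 h1 h2
  obtain ⟨a, ha, hc, ha1, hpos, hne⟩ := h' 𝔫 h1 h2
  refine ⟨a, ha, hc, ha1, hpos, fun h3 => hne ?_⟩
  rw [MonoidHom.pow_apply] at h3
  exact eq_one_of_pow (coprime_succ hp hj) h3 (hpow (sp a ha) hc)

end Pow

/-! ### Elementary analysis -/

theorem norm_term_lt {a : ℂ} (ha : ‖a‖ ≤ 1) {N : ℕ} (hN : 2 ≤ N) {z : ℂ} (hz : z.re = 1) :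
    1 - a * (N : ℂ) ^ (-z) ≠ 0 := by
  intro h
  have h1 : a * (N : ℂ) ^ (-z) = 1 := (sub_eq_zero.mp h).symm
  have h2 := congrArg norm h1
  have hN' : (2 : ℝ) ≤ N := by exact_mod_cast hN
  rw [norm_mul, Complex.norm_natCast_cpow_of_pos (by omega), Complex.neg_re, hz, norm_one,
    Real.rpow_neg_one] at h2
  have h3 : ((N : ℝ))⁻¹ ≤ 1 / 2 := by
    rw [one_div]
    exact inv_anti₀ (by norm_num) hN'
  have h4 : (0 : ℝ) < (N : ℝ)⁻¹ := by positivity
  nlinarith [norm_nonneg a]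

theorem exists_zero {a : ℂ} (ha : ‖a‖ = 1) {N : ℕ} (hN : 2 ≤ N) :
    ∃ s : ℂ, s.re = 0 ∧ 1 - a * (N : ℂ) ^ (-s) = 0 := by
  have ha0 : a ≠ 0 := by
    rw [← norm_ne_zero_iff, ha]
    exact one_ne_zero
  have hlog : 0 < Real.log N := Real.log_pos (by exact_mod_cast hN)
  have hN0 : (N : ℂ) ≠ 0 := by
    rw [Nat.cast_ne_zero]
    omega
  refine ⟨((Real.log N : ℝ) : ℂ)⁻¹ * Complex.log a, ?_, ?_⟩
  · rw [← Complex.ofReal_inv, Complex.re_ofReal_mul, Complex.log_re, ha, Real.log_one, mul_zero]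
  · have h1 : Complex.log (N : ℂ) = ((Real.log N : ℝ) : ℂ) := by
      rw [← Complex.ofReal_natCast, ← Complex.ofReal_log (Nat.cast_nonneg N)]
    have h2 : ((Real.log N : ℝ) : ℂ) ≠ 0 := Complex.ofReal_ne_zero.mpr hlog.ne'
    rw [Complex.cpow_def_of_ne_zero hN0, h1, mul_neg, mul_inv_cancel_left₀ h2, Complex.exp_neg,
      Complex.exp_log ha0, mul_inv_cancel₀ ha0, sub_self]

theorem ofReal_pow_cpow {r : ℝ} (hr : 0 ≤ r) (k : ℕ) (z : ℂ) :
    ((r ^ k : ℝ) : ℂ) ^ z = ((r : ℂ) ^ z) ^ k := by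
  induction k with
  | zero => rw [pow_zero, pow_zero, Complex.ofReal_one, Complex.one_cpow]
  | succ k ih =>
    rw [pow_succ, pow_succ, Complex.ofReal_mul,
      Complex.mul_cpow_ofReal_nonneg (by positivity) hr, ih]

/-- the completed zeta function times `s (1 - s)` -/
def X (K : Type) [Field K] [NumberField K] : ℂ → ℂ := XiF (K := K) fun _ => 1

theorem differentiable_X : Differentiable ℂ (X K) := differentiable_XiF _

theorem X_one_sub (s : ℂ) : X K (1 - s) = X K s := XiF_one_sub _ s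

theorem X_conj (s : ℂ) : X K (conj s) = conj (X K s) := by
  have h := XiF_conj (K := K) (fun _ => 1) s
  simp only [map_one] at h
  exact h

theorem X_eq {s : ℂ} (hs : 1 < s.re) : X K s =
    s * (1 - s) * (((|(discr K : ℝ)| : ℝ) : ℂ) ^ (s / 2) * gam K s * dedekindZeta K s) := by
  have h0 : s ≠ 0 := by
    rintro rfl
    norm_num at hs
  have h1 : s ≠ 1 := by
    rintro rfl
    norm_num at hs
  rw [X, XiF_eq_LF _ h0 h1 (gam_ne_zero_base (by linarith)), ← zetaK_eq K hs]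
  rfl

theorem X_ne_zero {s : ℂ} (hs : 1 < s.re) : X K s ≠ 0 := by
  have h0 : s ≠ 0 := by
    rintro rfl
    norm_num at hs
  have h1 : s ≠ 1 := by
    rintro rfl
    norm_num at hs
  rw [X_eq hs]
  refine mul_ne_zero (mul_ne_zero h0 (sub_ne_zero.mpr h1.symm)) (mul_ne_zero (mul_ne_zero
    (absDisc_cpow_ne_zero _) (gam_ne_zero_base (by linarith))) ?_)
  rw [← zetaK_eq K hs]
  exact zetaK_ne_zero hs.le h1

/-! ### The theorem -/

/-- **(P5)** -/
theorem condStmt_of (hZ : ZetaStmt K L) : CondStmt K L := by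
  intro p hp hK hg hd 𝔪 ψ h 𝔣 ψ' hle h' hprim hag
  have h𝔣 : 𝔣 ≠ ⊥ := fun h0 => h.ne_bot (le_bot_iff.mp (h0 ▸ hle))
  have hpow : ∀ I : (Ideal (𝓞 K))⁰, IsCoprime (I : Ideal (𝓞 K)) 𝔣 → ψ' I ^ p = 1 :=
    fun I hI => pow_prim h hle h' hag hI
  have hlt : ∀ {j : ℕ}, j ∈ Finset.range (p - 1) → j + 1 < p := fun {j} hj => by
    rw [Finset.mem_range] at hj
    omega
  have hagj : ∀ (j : ℕ) (I : (Ideal (𝓞 K))⁰), IsCoprime (I : Ideal (𝓞 K)) 𝔪 →
      (ψ ^ (j + 1)) I = (ψ' ^ (j + 1)) I := fun j I hI => by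
    rw [MonoidHom.pow_apply, MonoidHom.pow_apply, hag I hI]
  set D : ℝ := |(discr K : ℝ)| * (Ideal.absNorm 𝔣 : ℝ) with hDdef
  have hdK : (0 : ℝ) < |(discr K : ℝ)| := disc_pos K
  have hdL : (0 : ℝ) < |(discr L : ℝ)| := disc_pos L
  have hD : 0 < D := mul_pos hdK (nF_pos' h𝔣)
  -- the completed `L`-functions
  have hΛ : ∀ j : ℕ, ∃ (W : ℂ) (Λ : ℂ → ℂ), j + 1 < p → ‖W‖ = 1 ∧ Differentiable ℂ Λ ∧
      (∀ s : ℂ, 1 < s.re → Λ s = (D : ℂ) ^ (s / 2) * gam K s * Ray.Ls (ψ' ^ (j + 1)) s) ∧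
      ∀ s, Λ s = W * conj (Λ (1 - conj s)) := by
    intro j
    by_cases hj : j + 1 < p
    · have hr := nRayChar_pow h' j
      have hpr := isPrimC_pow hp hj hprim hpow
      have hS : HasS 𝔣 (ψ' ^ (j + 1)) ∅ := hasS_empty hp hK hr fun I hI => by
        rw [MonoidHom.pow_apply, ← pow_mul, mul_comm, pow_mul, hpow I hI, one_pow]
      obtain ⟨τ, hτ⟩ := gaussStmt K ∅ 𝔣 (ψ' ^ (j + 1)) ⟨h𝔣, hr, hS⟩ hpr
      have hq : ∃ I : (Ideal (𝓞 K))⁰, IsCoprime (I : Ideal (𝓞 K)) 𝔣 ∧ (ψ' ^ (j + 1)) I ≠ 1 := by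
        obtain ⟨I, hI, hI1⟩ := h.pow_ne hp hj
        exact ⟨I, isCoprime_mono hle hI, by rwa [← hagj j I hI]⟩
      obtain ⟨-, hW, Λ, hΛ, hΛ1, hfe⟩ :=
        funEq_of_gauss (feStmt K) glueStmt (nonVanNStmt K) h𝔣 hr hS hτ hq
      refine ⟨_, Λ, fun _ => ⟨hW, hΛ, fun s hs => ?_, hfe⟩⟩
      rw [hΛ1 s hs, gamS_empty]
    · exact ⟨1, 0, fun h => absurd h hj⟩
  choose W Λ hΛ using hΛ
  set E : ℂ → ℂ := fun s => ∏ j ∈ Finset.range (p - 1), ∏ P ∈ badPr h.ne_bot,
    (1 - (ψ' ^ (j + 1)) P.1 * (Ideal.absNorm (P.1 : Ideal (𝓞 K)) : ℂ) ^ (-s)) with hE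
  set Pd : ℂ → ℂ := fun s => ∏ j ∈ Finset.range (p - 1), Λ j s with hPd
  have hEd : Differentiable ℂ E := by
    refine Differentiable.fun_finsetProd fun j _ => Differentiable.fun_finsetProd fun P _ => ?_
    refine (differentiable_const _).sub (Differentiable.const_mul ?_ _)
    exact (differentiable_id.neg).const_cpow (Or.inl (by
      exact_mod_cast (Ideal.absNorm_pos_of_nonZeroDivisors P.1).ne'))
  have hPdd : Differentiable ℂ Pd :=
    Differentiable.fun_finsetProd fun j hj => (hΛ j (hlt hj)).2.1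
  set C : ℝ := |(discr L : ℝ)| / (|(discr K : ℝ)| * D ^ (p - 1)) with hC
  have hC0 : 0 < C := by positivity
  have hCc : (C : ℂ) ≠ 0 := Complex.ofReal_ne_zero.mpr hC0.ne'
  have hdLC : |(discr L : ℝ)| = C * |(discr K : ℝ)| * D ^ (p - 1) := by
    rw [hC]
    field_simp
  have hCd : Differentiable ℂ fun s : ℂ => (C : ℂ) ^ (s / 2) :=
    (differentiable_id.div_const 2).const_cpow (Or.inl hCc)
  -- the identity on the right
  have star : X L = fun s => (C : ℂ) ^ (s / 2) * E s * X K s * Pd s := by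
    refine eq_of_re_gt differentiable_X (((hCd.mul hEd).mul differentiable_X).mul hPdd)
      fun s hs => ?_
    have e1 : ((|(discr L : ℝ)| : ℝ) : ℂ) ^ (s / 2) = (C : ℂ) ^ (s / 2) *
        ((|(discr K : ℝ)| : ℝ) : ℂ) ^ (s / 2) * ((D : ℂ) ^ (s / 2)) ^ (p - 1) := by
      rw [hdLC, Complex.ofReal_mul, Complex.mul_cpow_ofReal_nonneg (by positivity)
        (by positivity), Complex.ofReal_mul, Complex.mul_cpow_ofReal_nonneg hC0.le hdK.le,
        ofReal_pow_cpow hD.le]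
    have e2 : ∏ j ∈ Finset.range (p - 1), Ray.Ls (ψ ^ (j + 1)) s =
        (∏ j ∈ Finset.range (p - 1), Ray.Ls (ψ' ^ (j + 1)) s) * E s := by
      rw [hE, ← Finset.prod_mul_distrib]
      exact Finset.prod_congr rfl fun j _ =>
        Ls_induced h.ne_bot (nRayChar_pow h.ray j) (nRayChar_pow h' j) (hagj j) hs
    have e3 : Pd s = ((D : ℂ) ^ (s / 2)) ^ (p - 1) * gam K s ^ (p - 1) *
        ∏ j ∈ Finset.range (p - 1), Ray.Ls (ψ' ^ (j + 1)) s := by
      rw [hPd]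
      beta_reduce
      rw [Finset.prod_congr rfl fun j hj => (hΛ j (hlt hj)).2.2.1 s hs, Finset.prod_mul_distrib,
        Finset.prod_mul_distrib, Finset.prod_const, Finset.prod_const, Finset.card_range]
    have e4 : gam K s ^ p = gam K s * gam K s ^ (p - 1) := by
      rw [← pow_succ', Nat.sub_add_cancel hp.one_le]
    rw [X_eq hs, X_eq hs, e1, gam_eq_pow (isUnramified_inf hp hK hg hd) hg hd, e4,
      hZ p hp hg hd 𝔪 ψ h s hs, e2, e3]
    ring
  have star' : ∀ s, X L s = (C : ℂ) ^ (s / 2) * E s * X K s * Pd s := fun s => congrFun star s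
  -- the functional equation
  set Wt : ℂ := ∏ j ∈ Finset.range (p - 1), W j with hWt
  have hPfe : ∀ s, Pd s = Wt * conj (Pd (1 - conj s)) := by
    intro s
    rw [hPd, hWt]
    beta_reduce
    rw [map_prod, ← Finset.prod_mul_distrib]
    exact Finset.prod_congr rfl fun j hj => (hΛ j (hlt hj)).2.2.2 s
  have hWt0 : Wt ≠ 0 := Finset.prod_ne_zero_iff.mpr fun j hj => by
    rw [← norm_ne_zero_iff, (hΛ j (hlt hj)).1]
    exact one_ne_zero
  have hXc : ∀ {F : Type} [Field F] [NumberField F] (s : ℂ), conj (X F (1 - conj s)) = X F s := by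
    intro F _ _ s
    have e1 : 1 - conj s = conj (1 - s) := by rw [map_sub, map_one]
    rw [e1, X_conj, Complex.conj_conj, X_one_sub]
  have hPd0 : ∀ s : ℂ, 1 < s.re → Pd s ≠ 0 := by
    intro s hs
    refine Finset.prod_ne_zero_iff.mpr fun j hj => ?_
    rw [(hΛ j (hlt hj)).2.2.1 s hs]
    refine mul_ne_zero (mul_ne_zero (ofReal_cpow_ne_zero hD _) (gam_ne_zero_base (by linarith))) ?_
    exact Psi.Lp_ne_zero (nRayChar_pow h' j).norm_le hs
  have hconjC : ∀ s : ℂ, conj ((C : ℂ) ^ ((1 - conj s) / 2)) = (C : ℂ) ^ ((1 - s) / 2) := by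
    intro s
    rw [conj_ofReal_cpow hC0.le, map_div₀, map_sub, map_one, Complex.conj_conj, conj_two]
  have star2 : (fun s => (C : ℂ) ^ ((1 - s) / 2) * conj (E (1 - conj s))) =
      fun s => Wt * (C : ℂ) ^ (s / 2) * E s := by
    refine eq_of_re_gt ?_ ((hCd.const_mul Wt).mul hEd) fun s hs => ?_
    · refine Differentiable.mul ?_ (Glue.differentiable_star hEd)
      exact ((differentiable_const (1 : ℂ)).sub differentiable_id).div_const 2 |>.const_cpow
        (Or.inl hCc)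
    · have e1 := congrArg conj (star' (1 - conj s))
      rw [hXc, map_mul, map_mul, map_mul, hconjC, hXc] at e1
      have e2 := star' s
      rw [hPfe s] at e2
      have e3 : X K s * conj (Pd (1 - conj s)) ≠ 0 := by
        refine mul_ne_zero (X_ne_zero hs) fun h0 => hPd0 s hs ?_
        rw [hPfe s, h0, mul_zero]
      refine mul_right_cancel₀ e3 ?_
      linear_combination e2 - e1
  have star3 : ∀ s, (C : ℂ) ^ ((1 - s) / 2) * conj (E (1 - conj s)) = Wt * (C : ℂ) ^ (s / 2) * E s :=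
    fun s => congrFun star2 s
  have hN2 : ∀ P : Pr K, 2 ≤ Ideal.absNorm (P.1 : Ideal (𝓞 K)) := by
    intro P
    have h1 : Ideal.absNorm (P.1 : Ideal (𝓞 K)) ≠ 1 := by
      rw [Ne, Ideal.absNorm_eq_one_iff]
      exact (Ideal.isPrime_of_prime P.2).ne_top
    have h2 : 0 < Ideal.absNorm (P.1 : Ideal (𝓞 K)) := Ideal.absNorm_pos_of_nonZeroDivisors P.1
    omega
  -- no Euler factors
  have hzero : ∀ j ∈ Finset.range (p - 1), ∀ P ∈ badPr h.ne_bot, (ψ' ^ (j + 1)) P.1 = 0 := by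
    intro j hj P hP
    by_contra hne
    have hn : ‖(ψ' ^ (j + 1)) P.1‖ = 1 := by
      have hc : IsCoprime ((P.1 : (Ideal (𝓞 K))⁰) : Ideal (𝓞 K)) 𝔣 := by
        by_contra hc
        exact hne ((nRayChar_pow h' j).eq_zero P.1 hc)
      rw [MonoidHom.pow_apply, norm_pow,
        Complex.norm_eq_one_of_pow_eq_one (hpow P.1 hc) hp.ne_zero, one_pow]
    obtain ⟨s₀, hs₀, hz⟩ := exists_zero hn (hN2 P)
    have e1 : E s₀ = 0 := Finset.prod_eq_zero hj (Finset.prod_eq_zero hP hz)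
    have e2 := star3 s₀
    rw [e1, mul_zero] at e2
    have e3 : E (1 - conj s₀) = 0 := by
      have := (mul_eq_zero.mp e2).resolve_left (ofReal_cpow_ne_zero hC0 _)
      exact (map_eq_zero _).mp this
    rw [hE] at e3
    beta_reduce at e3
    obtain ⟨j', hj', e4⟩ := Finset.prod_eq_zero_iff.mp e3
    obtain ⟨P', hP', e5⟩ := Finset.prod_eq_zero_iff.mp e4
    refine norm_term_lt ((nRayChar_pow h' j').norm_le P'.1) (hN2 P') ?_ e5
    rw [Complex.sub_re, Complex.one_re, Complex.conj_re, hs₀, sub_zero]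
  have hE1 : ∀ s, E s = 1 := fun s => Finset.prod_eq_one fun j hj =>
    Finset.prod_eq_one fun P hP => by rw [hzero j hj P hP, zero_mul, sub_zero]
  -- the constant
  have hC1 : C = 1 := by
    have e1 := star3 (1 / 2)
    have e2 := star3 0
    rw [hE1, hE1, map_one, mul_one, mul_one] at e1 e2
    have e3 : ((1 : ℂ) - 1 / 2) / 2 = (1 / 2) / 2 := by norm_num
    rw [e3] at e1
    have e4 : Wt = 1 := by
      have h1 : (C : ℂ) ^ ((1 / 2 : ℂ) / 2) ≠ 0 := ofReal_cpow_ne_zero hC0 _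
      refine mul_right_cancel₀ h1 ?_
      rw [one_mul]
      exact e1.symm
    rw [e4, one_mul, zero_div, Complex.cpow_zero, sub_zero] at e2
    have e5 : (C : ℂ) ^ (1 / 2 : ℂ) = ((√C : ℝ) : ℂ) := by
      rw [Real.sqrt_eq_rpow, Complex.ofReal_cpow hC0.le]
      push_cast
      rfl
    rw [e5] at e2
    have e6 : √C = 1 := by exact_mod_cast e2
    rwa [Real.sqrt_eq_one] at e6
  refine ⟨?_, fun v => ⟨fun hv => ?_, fun hv => ?_⟩⟩
  · rw [hC1, one_mul] at hdLC
    have e1 : ((discr L).natAbs : ℝ) = |(discr L : ℝ)| := by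
      rw [Nat.cast_natAbs, Int.cast_abs]
    have e2 : ((discr K).natAbs : ℝ) = |(discr K : ℝ)| := by
      rw [Nat.cast_natAbs, Int.cast_abs]
    have e3 : ((discr L).natAbs : ℝ) =
        (((discr K).natAbs ^ p * Ideal.absNorm 𝔣 ^ (p - 1) : ℕ) : ℝ) := by
      push_cast
      rw [e1, e2, hdLC, hDdef, mul_pow, ← mul_assoc, ← pow_succ', Nat.sub_add_cancel hp.one_le]
    exact_mod_cast e3
  · rw [← h.ram v]
    exact hv.trans (Ideal.dvd_iff_le.mpr hle)
  · rw [← h.ram v] at hv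
    by_contra hcon
    have hc : IsCoprime v.asIdeal 𝔣 := isCoprime_of_prime v.isPrime v.ne_bot hcon
    have h0 : 0 ∈ Finset.range (p - 1) := by
      rw [Finset.mem_range]
      have := hp.two_le
      omega
    have e1 := hzero 0 h0 (prEquiv K v) ((mem_badPr h.ne_bot _).mpr hv)
    rw [MonoidHom.pow_apply, zero_add, pow_one] at e1
    have e2 := hpow (pI v) hc
    have e3 : ψ' (pI v) = 0 := e1
    rw [e3, zero_pow hp.ne_zero] at e2
    exact zero_ne_one e2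

end Fermat.Agent.Cor.Rel

end
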