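import Fermat.Agent.Corollaries.Rel.Solv
import Fermat.Agent.Corollaries.Siegel.GalRel

/-!
# Dedekind's conjecture for cubic fields

`cubic_quot`: `M` a Galois field of degree six, `K` a cubic subfield, not Galois over `ℚ`, `k` the
quadratic subfield: `ζ_K / ζ` is an entire function `G`, `G² = ζ_M / ζ_k`, `G ≠ 0` on `Re s ≥ 1`,
and `G` has infinitely many zeros in the critical strip (Dedekind 1900 for pure cubic fields).
-/

set_option autoImplicit false

noncomputable section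

namespace Fermat.Agent.Cor.Rel

open NumberField Module Filter Topology
open Fermat.Agent.ClassL Fermat.Agent.Classic.Zeta Fermat.Agent.Cor.Ray Fermat.Agent.Cor.RayN
open Fermat.Agent.Cor.RayF

/-- the square root of a quotient of entire functions -/
theorem exists_entire_sqrt {A B F : ℂ → ℂ} (hA : Differentiable ℂ A) (hB : Differentiable ℂ B)
    (hF : Differentiable ℂ F) (hB0 : ∃ s, B s ≠ 0) (h : ∀ s, A s ^ 2 = B s ^ 2 * F s) :
    ∃ G : ℂ → ℂ, Differentiable ℂ G ∧ (∀ s, A s = B s * G s) ∧ ∀ s, G s ^ 2 = F s := by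
  have hBp : ∀ s, ∀ᶠ z in 𝓝[≠] s, B z ≠ 0 := by
    intro s
    rcases (hB.analyticAt s).eventually_eq_zero_or_eventually_ne_zero with h1 | h1
    · exfalso
      obtain ⟨z, hz⟩ := hB0
      exact hz (congrFun (AnalyticOnNhd.eq_of_eventuallyEq (f := B) (g := fun _ => 0)
        (fun z _ => hB.analyticAt z) (fun _ _ => analyticAt_const) h1) z)
    · exact h1
  have hm : MeromorphicOn (fun s => A s / B s) Set.univ := fun s _ =>
    (hA.analyticAt s).meromorphicAt.div (hB.analyticAt s).meromorphicAt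
  set G := toMeromorphicNFOn (fun s => A s / B s) Set.univ with hGdef
  have hG : MeromorphicNFOn G Set.univ := meromorphicNFOn_toMeromorphicNFOn _ _
  have heq : ∀ s, ∀ᶠ z in 𝓝[≠] s, G z = A z / B z := fun s =>
    hm.toMeromorphicNFOn_eq_self_on_nhdsNE (Set.mem_univ s)
  have hsq : ∀ s, (G ^ 2) =ᶠ[𝓝[≠] s] F := by
    intro s
    filter_upwards [heq s, hBp s] with z h1 h2
    rw [Pi.pow_apply, h1, div_pow, h z, mul_div_cancel_left₀ _ (pow_ne_zero 2 h2)]
  have han : ∀ s, AnalyticAt ℂ G s := by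
    intro s
    refine (hG (Set.mem_univ s)).meromorphicOrderAt_nonneg_iff_analyticAt.mp ?_
    have h1 := meromorphicOrderAt_congr (hsq s)
    rw [pow_two, meromorphicOrderAt_mul (hG (Set.mem_univ s)).meromorphicAt
      (hG (Set.mem_univ s)).meromorphicAt] at h1
    have h2 : 0 ≤ meromorphicOrderAt F s := (hF.analyticAt s).meromorphicOrderAt_nonneg
    rw [← h1] at h2
    by_contra h3
    push Not at h3
    obtain ⟨n, hn⟩ := WithTop.ne_top_iff_exists.mp h3.ne_top
    rw [← hn] at h2 h3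
    have h4 : n < 0 := by exact_mod_cast h3
    have h5 : (0 : ℤ) ≤ n + n := by exact_mod_cast h2
    omega
  have hGd : Differentiable ℂ G := fun s => (han s).differentiableAt
  refine ⟨G, hGd, fun s => ?_, fun s => ?_⟩
  · have e1 : Tendsto A (𝓝[≠] s) (𝓝 (A s)) := hA.continuous.continuousAt.mono_left nhdsWithin_le_nhds
    have e2 : Tendsto (fun z => B z * G z) (𝓝[≠] s) (𝓝 (B s * G s)) :=
      (hB.mul hGd).continuous.continuousAt.mono_left nhdsWithin_le_nhds
    refine tendsto_nhds_unique e1 (e2.congr' ?_)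
    filter_upwards [heq s, hBp s] with z h1 h2
    rw [h1, mul_div_cancel₀ _ h2]
  · have e1 : Tendsto (fun z => G z ^ 2) (𝓝[≠] s) (𝓝 (G s ^ 2)) :=
      (hGd.pow 2).continuous.continuousAt.mono_left nhdsWithin_le_nhds
    have e2 : Tendsto F (𝓝[≠] s) (𝓝 (F s)) := hF.continuous.continuousAt.mono_left nhdsWithin_le_nhds
    refine tendsto_nhds_unique e1 (e2.congr' ?_)
    filter_upwards [hsq s] with z h1
    exact h1.symm

/-- the entire function `(s - 1) ζ_K(s)` -/
theorem exists_entire_zeta (K : Type) [Field K] [NumberField K] : ∃ A : ℂ → ℂ, Differentiable ℂ A ∧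
    (∀ s : ℂ, s ≠ 1 → A s = (s - 1) * zetaK K s) ∧ A 2 ≠ 0 := by
  refine ⟨WK (K := K) fun _ => 1, differentiable_WK _, fun s hs => WK_eq _ hs, ?_⟩
  have h2 : (2 : ℂ) ≠ 1 := by norm_num
  rw [WK_eq _ h2]
  exact mul_ne_zero (by norm_num) (zetaK_ne_zero (K := K) (by norm_num) h2)

variable {M : Type} [Field M] [NumberField M] [IsGalois ℚ M]

/-- **Dedekind's conjecture for cubic fields**: `ζ_K / ζ` is entire. -/
theorem cubic_quot (hM : finrank ℚ M = 6) {K k : IntermediateField ℚ M}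
    (hK : finrank ℚ K = 3) (hK' : ¬ IsGalois ℚ K) (hk : finrank ℚ k = 2) :
    ∃ G : ℂ → ℂ, Differentiable ℂ G ∧ (∀ s : ℂ, s ≠ 1 → zetaK K s = riemannZeta s * G s) ∧
      (∀ s : ℂ, s ≠ 1 → zetaK M s = zetaK k s * G s ^ 2) ∧ (∀ s : ℂ, 1 ≤ s.re → G s ≠ 0) ∧
      {s : ℂ | 0 < s.re ∧ s.re < 1 ∧ G s = 0}.Infinite := by
  have hkM : finrank k M = 3 := by
    have := finrank_mul_finrank ℚ k M
    rw [hk, hM] at this
    omega
  obtain ⟨F, hF, hFe, hF1, hFi⟩ := exists_quot_all (K := k) M Nat.prime_three hkM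
  obtain ⟨A, hA, hAe, -⟩ := exists_entire_zeta K
  obtain ⟨B, hB, hBe, hB2⟩ := exists_entire_zeta ℚ
  obtain ⟨Z, hZ, hZe, hZ2⟩ := exists_entire_zeta k
  have hrel := (Brauer.cubic_galois hM hK hK' hk).1
  have hQ : ∀ s : ℂ, s ≠ 1 → zetaK ℚ s = riemannZeta s := fun s hs => zetaK_rat hs
  have key : ∀ s, Z s * A s ^ 2 = Z s * (B s ^ 2 * F s) := by
    have h1 : (fun s => Z s * A s ^ 2) = fun s => Z s * (B s ^ 2 * F s) := by
      refine eq_of_re_gt (hZ.mul (hA.pow 2)) (hZ.mul ((hB.pow 2).mul hF)) fun s hs => ?_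
      have hs1 : s ≠ 1 := by
        rintro rfl
        norm_num at hs
      have e1 := hrel s hs1
      rw [hFe s hs1] at e1
      rw [hZe s hs1, hAe s hs1, hBe s hs1, hQ s hs1]
      linear_combination -(s - 1) ^ 3 * e1
    exact fun s => congrFun h1 s
  have key2 : (fun s => A s ^ 2) = fun s => B s ^ 2 * F s := by
    refine eq_of_re_gt (hA.pow 2) ((hB.pow 2).mul hF) fun s hs => ?_
    have hs1 : s ≠ 1 := by
      rintro rfl
      norm_num at hs
    refine mul_left_cancel₀ ?_ (key s)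
    rw [hZe s hs1]
    exact mul_ne_zero (sub_ne_zero.mpr hs1) (zetaK_ne_zero (K := k) hs.le hs1)
  obtain ⟨G, hG, hAG, hG2⟩ := exists_entire_sqrt hA hB hF ⟨2, hB2⟩ fun s => congrFun key2 s
  refine ⟨G, hG, fun s hs => ?_, fun s hs => ?_, fun s hs h0 => ?_, hFi.mono ?_⟩
  · have e1 := hAG s
    rw [hAe s hs, hBe s hs, hQ s hs, mul_assoc] at e1
    exact mul_left_cancel₀ (sub_ne_zero.mpr hs) e1
  · rw [hFe s hs, hG2]
  · refine hF1 s hs ?_
    rw [← hG2, h0]
    ring
  · rintro s ⟨a, b, c⟩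
    refine ⟨a, b, ?_⟩
    rw [← hG2] at c
    exact pow_eq_zero_iff two_ne_zero |>.mp c

end Fermat.Agent.Cor.Rel

end
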