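import Fermat.Agent.Corollaries.RayF.Final
import Fermat.Agent.LT.Ray

/-!
# The zeta function of a cyclic extension of prime degree: definitions

`L/K` Galois of prime degree `p`.  `IsCharOf L p 𝔪 ψ`: `ψ` is a narrow ray class character of `K`
modulo `𝔪` of order `p`, the primes dividing `𝔪` are those ramified in `L`, and the other primes
split completely if and only if `ψ` is one.

Pieces: `ofRayStmt` (from ray characters on the places to narrow ray class characters), `LocalStmt`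
(the Euler factors), `FibreStmt` (the Euler product of `ζ_L` over the places of `K`),
`ZetaStmt` (`ζ_L = ζ_K ∏ L(s, ψ^j)`), `CondStmt` (the conductor-discriminant formula).
-/

set_option autoImplicit false

noncomputable section

namespace Fermat.Agent.Cor.Rel

open NumberField IsDedekindDomain
open Fermat.Agent.Cor.Ray Fermat.Agent.Cor.RayN Fermat.Agent.Cor.RayF
open scoped nonZeroDivisors Classical

/-- the ideal of a place -/
def pI {K : Type} [Field K] [NumberField K] (v : HeightOneSpectrum (𝓞 K)) : (Ideal (𝓞 K))⁰ :=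
  ⟨v.asIdeal, mem_nonZeroDivisors_of_ne_zero v.ne_bot⟩

/-- the norm of a place -/
def nv {K : Type} [Field K] [NumberField K] (v : HeightOneSpectrum (𝓞 K)) : ℕ :=
  Ideal.absNorm v.asIdeal

variable {K : Type} [Field K] [NumberField K] (L : Type) [Field L] [NumberField L] [Algebra K L]

/-- the place `v` of `K` is ramified in `L` -/
def Ram (v : HeightOneSpectrum (𝓞 K)) : Prop :=
  ∃ w : HeightOneSpectrum (𝓞 L), w.under (𝓞 K) = v ∧
    v.asIdeal.ramificationIdx' w.asIdeal ≠ 1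

/-- `ψ` is a character of `L/K` (of prime degree `p`) -/
structure IsCharOf (p : ℕ) (𝔪 : Ideal (𝓞 K)) (ψ : (Ideal (𝓞 K))⁰ →* ℂ) : Prop where
  ne_bot : 𝔪 ≠ ⊥
  ray : NRayChar 𝔪 ψ
  ram : ∀ v : HeightOneSpectrum (𝓞 K), v.asIdeal ∣ 𝔪 ↔ Ram L v
  pow : ∀ I : (Ideal (𝓞 K))⁰, IsCoprime (I : Ideal (𝓞 K)) 𝔪 → ψ I ^ p = 1
  split : ∀ w : HeightOneSpectrum (𝓞 L), ¬ Ram L (w.under (𝓞 K)) →
    (ψ (pI (w.under (𝓞 K))) = 1 ↔ (w.under (𝓞 K)).asIdeal.inertiaDeg' w.asIdeal = 1)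
  ne_one : ∃ I : (Ideal (𝓞 K))⁰, IsCoprime (I : Ideal (𝓞 K)) 𝔪 ∧ ψ I ≠ 1

/-- (P1) from ray characters on the places to narrow ray class characters -/
def OfRayStmt (K : Type) [Field K] [NumberField K] : Prop :=
  ∀ (p : ℕ), p.Prime → ∀ (S : Finset (HeightOneSpectrum (𝓞 K))) (n : ℕ)
    (η : HeightOneSpectrum (𝓞 K) → ZMod p), Fermat.Agent.LT.IsRay S n η →
    ∃ (𝔪 : Ideal (𝓞 K)) (ψ : (Ideal (𝓞 K))⁰ →* ℂ), 𝔪 ≠ ⊥ ∧
      (∀ v : HeightOneSpectrum (𝓞 K), v.asIdeal ∣ 𝔪 ↔ v ∈ S) ∧ NRayChar 𝔪 ψ ∧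
      (∀ I : (Ideal (𝓞 K))⁰, IsCoprime (I : Ideal (𝓞 K)) 𝔪 → ψ I ^ p = 1) ∧
      ∀ v : HeightOneSpectrum (𝓞 K), v ∉ S → (ψ (pI v) = 1 ↔ η v = 0)

/-- (P2) the Euler factors of `L/K`, Galois of prime degree `p` -/
def LocalStmt (K L : Type) [Field K] [NumberField K] [Field L] [NumberField L] [Algebra K L] :
    Prop :=
  ∀ (p : ℕ), p.Prime → IsGalois K L → Module.finrank K L = p →
    ∀ (𝔪 : Ideal (𝓞 K)) (ψ : (Ideal (𝓞 K))⁰ →* ℂ), IsCharOf L p 𝔪 ψ →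
      ∀ (v : HeightOneSpectrum (𝓞 K)) (s : ℂ),
        ∏ᶠ w ∈ {w : HeightOneSpectrum (𝓞 L) | w.under (𝓞 K) = v}, (1 - (nv w : ℂ) ^ (-s)) =
          (1 - (nv v : ℂ) ^ (-s)) *
            ∏ j ∈ Finset.range (p - 1), (1 - ψ (pI v) ^ (j + 1) * (nv v : ℂ) ^ (-s))

/-- (P3) the Euler product of `ζ_L` over the places of `K` (any extension `L/K`) -/
def FibreStmt (K L : Type) [Field K] [NumberField K] [Field L] [NumberField L] [Algebra K L] :
    Prop :=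
  ∀ s : ℂ, 1 < s.re → HasProd (fun v : HeightOneSpectrum (𝓞 K) =>
    (∏ᶠ w ∈ {w : HeightOneSpectrum (𝓞 L) | w.under (𝓞 K) = v}, (1 - (nv w : ℂ) ^ (-s)))⁻¹)
    (dedekindZeta L s)

/-- (P4) -/
def ZetaStmt (K L : Type) [Field K] [NumberField K] [Field L] [NumberField L] [Algebra K L] :
    Prop :=
  ∀ (p : ℕ), p.Prime → IsGalois K L → Module.finrank K L = p →
    ∀ (𝔪 : Ideal (𝓞 K)) (ψ : (Ideal (𝓞 K))⁰ →* ℂ), IsCharOf L p 𝔪 ψ → ∀ s : ℂ, 1 < s.re →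
      dedekindZeta L s = dedekindZeta K s * ∏ j ∈ Finset.range (p - 1), Ray.Ls (ψ ^ (j + 1)) s

/-- (P5) the conductor-discriminant formula (`p` odd or `K` totally complex) -/
def CondStmt (K L : Type) [Field K] [NumberField K] [Field L] [NumberField L] [Algebra K L] :
    Prop :=
  ∀ (p : ℕ), p.Prime → (p ≠ 2 ∨ IsTotallyComplex K) → IsGalois K L → Module.finrank K L = p →
    ∀ (𝔪 : Ideal (𝓞 K)) (ψ : (Ideal (𝓞 K))⁰ →* ℂ), IsCharOf L p 𝔪 ψ →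
      ∀ (𝔣 : Ideal (𝓞 K)) (ψ' : (Ideal (𝓞 K))⁰ →* ℂ), 𝔪 ≤ 𝔣 → NRayChar 𝔣 ψ' → IsPrimC 𝔣 ψ' →
        (∀ I : (Ideal (𝓞 K))⁰, IsCoprime (I : Ideal (𝓞 K)) 𝔪 → ψ I = ψ' I) →
        (discr L).natAbs = (discr K).natAbs ^ p * Ideal.absNorm 𝔣 ^ (p - 1) ∧
          ∀ v : HeightOneSpectrum (𝓞 K), v.asIdeal ∣ 𝔣 ↔ Ram L v

end Fermat.Agent.Cor.Rel

end
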