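import Fermat.Agent.Corollaries.Rel.Zeta

/-!
# The Euler product of `ζ_L` over the places of `K`

`fibreStmt`: `L/K` any extension of number fields: `ζ_L(s) = ∏_v (∏_{w ∣ v} (1 - N(w)^{-s}))⁻¹`,
`Re s > 1`, `v` over the places of `K`.
-/

set_option autoImplicit false

noncomputable section

namespace Fermat.Agent.Cor.Rel

open NumberField IsDedekindDomain
open Fermat.Agent.ClassL Fermat.Agent.Cor.Ray
open scoped nonZeroDivisors Classical

variable {K L : Type} [Field K] [NumberField K] [Field L] [NumberField L] [Algebra K L]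

/-- finitely many places above a place -/
theorem finite_fibre (v : HeightOneSpectrum (𝓞 K)) :
    {w : HeightOneSpectrum (𝓞 L) | w.under (𝓞 K) = v}.Finite := by
  have h0 : v.asIdeal.map (algebraMap (𝓞 K) (𝓞 L)) ≠ ⊥ := by
    rw [Ne, Ideal.map_eq_bot_iff_of_injective (FaithfulSMul.algebraMap_injective (𝓞 K) (𝓞 L))]
    exact v.ne_bot
  have h1 : {I : Ideal (𝓞 L) | I ∣ v.asIdeal.map (algebraMap (𝓞 K) (𝓞 L))}.Finite :=
    RayN.finite_dvd h0
  refine (h1.preimage (f := fun w : HeightOneSpectrum (𝓞 L) => w.asIdeal)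
    (fun _ _ _ _ h => HeightOneSpectrum.ext h)).subset fun w hw => ?_
  have hw' : w.under (𝓞 K) = v := hw
  change w.asIdeal ∣ _
  rw [Ideal.dvd_iff_le, Ideal.map_le_iff_le_comap, ← hw']
  exact le_rfl

theorem hasSum_log {s : ℂ} (hs : 1 < s.re) : HasSum (fun w : HeightOneSpectrum (𝓞 L) =>
    -Complex.log (1 - (nv w : ℂ) ^ (-s)))
    (∑' P : Pr L, -Complex.log (1 - (Ideal.absNorm (P.1 : Ideal (𝓞 L)) : ℂ) ^ (-s))) :=
  (prEquiv L).hasSum_iff.mpr (summable_log_absNorm (F := L) hs).hasSum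

theorem one_sub_nv_ne_zero (w : HeightOneSpectrum (𝓞 L)) {s : ℂ} (hs : 1 < s.re) :
    1 - (nv w : ℂ) ^ (-s) ≠ 0 := by
  have h := one_sub_ne_zero (Psi.summable_norm_psHom (K := L) (ψ := 1) (fun I => by simp) hs)
    (prEquiv L w)
  rw [Psi.psHom_apply, MonoidHom.one_apply, one_mul] at h
  exact h

/-- **(P3)** -/
theorem fibreStmt (K L : Type) [Field K] [NumberField K] [Field L] [NumberField L]
    [Algebra K L] : FibreStmt K L := by
  intro s hs
  have h1 := (Equiv.sigmaFiberEquiv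
    (fun w : HeightOneSpectrum (𝓞 L) => w.under (𝓞 K))).hasSum_iff.mpr (hasSum_log (L := L) hs)
  have hfin : ∀ v : HeightOneSpectrum (𝓞 K),
      Finite {w : HeightOneSpectrum (𝓞 L) // w.under (𝓞 K) = v} := fun v => finite_fibre v
  have h2 := h1.sigma (g := fun v : HeightOneSpectrum (𝓞 K) =>
    ∑ᶠ w : {w : HeightOneSpectrum (𝓞 L) // w.under (𝓞 K) = v},
      -Complex.log (1 - (nv w.1 : ℂ) ^ (-s))) fun v => by
    have := hfin v
    have := Fintype.ofFinite {w : HeightOneSpectrum (𝓞 L) // w.under (𝓞 K) = v}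
    rw [finsum_eq_sum_of_fintype]
    exact hasSum_fintype _
  have h3 := h2.cexp
  rw [exp_tsum_log_dedekindZeta hs] at h3
  convert h3 using 2 with v
  have := hfin v
  have := Fintype.ofFinite {w : HeightOneSpectrum (𝓞 L) // w.under (𝓞 K) = v}
  have e1 : ∏ᶠ w ∈ {w : HeightOneSpectrum (𝓞 L) | w.under (𝓞 K) = v}, (1 - (nv w : ℂ) ^ (-s)) =
      ∏ w : {w : HeightOneSpectrum (𝓞 L) // w.under (𝓞 K) = v}, (1 - (nv w.1 : ℂ) ^ (-s)) := by
    rw [← finprod_eq_prod_of_fintype]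
    exact (finprod_subtype_eq_finprod_cond
      (p := fun w : HeightOneSpectrum (𝓞 L) => w.under (𝓞 K) = v)
      (f := fun w : HeightOneSpectrum (𝓞 L) => 1 - (nv w : ℂ) ^ (-s))).symm
  rw [e1, Function.comp_apply, finsum_eq_sum_of_fintype, Complex.exp_sum,
    ← Finset.prod_inv_distrib]
  exact Finset.prod_congr rfl fun w _ => (exp_neg_log (one_sub_nv_ne_zero w.1 hs)).symm

end Fermat.Agent.Cor.Rel

end
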