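import Fermat.Agent.Corollaries.Rel.Defs
import Fermat.Agent.Corollaries.CFTP.Tower
import Fermat.Agent.Corollaries.CFTP.Conv

/-!
# The Euler factors of a Galois extension of prime degree
-/

set_option autoImplicit false

noncomputable section

namespace Fermat.Agent.Cor.Rel

open NumberField IsDedekindDomain Polynomial
open Fermat.Agent.Cor.Ray Fermat.Agent.Cor.RayN Fermat.Agent.Cor.RayF
open Fermat.Agent.LT.NV (fdeg edeg edeg_fdeg_eq)
open Fermat.Agent.LT.Psi (finite_under)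
open scoped nonZeroDivisors Classical

/-- `∏_{j < n} (1 - ζ^j x) = 1 - x^n` for a primitive `n`-th root of unity `ζ`. -/
theorem prod_one_sub_pow {n : ℕ} (hn : 0 < n) {ζ : ℂ} (hζ : IsPrimitiveRoot ζ n) (x : ℂ) :
    ∏ j ∈ Finset.range n, (1 - ζ ^ j * x) = 1 - x ^ n := by
  have h := congrArg (fun P : ℂ[X] => P.eval 1) (X_pow_sub_C_eq_prod hζ (α := x) hn rfl)
  simp only [eval_sub, eval_pow, eval_X, eval_C, one_pow, eval_prod] at h
  exact h.symm

variable {K L : Type} [Field K] [NumberField K] [Field L] [NumberField L] [Algebra K L]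

/-- `(N w) ^ (-s) = ((N v) ^ (-s)) ^ f`. -/
theorem nv_cpow (w : HeightOneSpectrum (𝓞 L)) (s : ℂ) :
    (nv w : ℂ) ^ (-s) = ((nv (w.under (𝓞 K)) : ℂ) ^ (-s)) ^ fdeg K w := by
  rw [nv, CFTP.absNorm_eq_pow_fdeg (K := K) w, ← nv, Nat.cast_pow, ← Complex.cpow_nat_mul,
    ← Complex.natCast_cpow_natCast_mul, mul_comm]

/-- **(P2) The Euler factors of `L/K`.** -/
theorem localStmt (K L : Type) [Field K] [NumberField K] [Field L] [NumberField L]
    [Algebra K L] : LocalStmt K L := by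
  intro p hp hGal hfin 𝔪 ψ hψ v s
  have := hGal
  obtain ⟨w₀, rfl⟩ := Fermat.Agent.CFT.Places.exists_below_eq L v
  set W := (finite_under (L := L) (w₀.under (𝓞 K))).toFinset with hW
  have hmem : ∀ w, w ∈ W ↔ w.under (𝓞 K) = w₀.under (𝓞 K) := by
    intro w
    rw [hW, Set.Finite.mem_toFinset, Set.mem_ofPred_eq]
  -- `#W e f = p`
  have hsum := CFTP.sum_edeg_mul_fdeg (K := K) w₀
  have hcard : W.card * (edeg K w₀ * fdeg K w₀) = p := by
    rw [IsGalois.card_aut_eq_finrank, hfin] at hsum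
    rw [← hsum, ← hW, ← smul_eq_mul, ← Finset.sum_const]
    exact Finset.sum_congr rfl fun w hw => by
      rw [(edeg_fdeg_eq ((hmem w).mp hw)).1, (edeg_fdeg_eq ((hmem w).mp hw)).2]
  set x : ℂ := (nv (w₀.under (𝓞 K)) : ℂ) ^ (-s) with hx
  have hL : ∏ᶠ w ∈ {w : HeightOneSpectrum (𝓞 L) | w.under (𝓞 K) = w₀.under (𝓞 K)},
      (1 - (nv w : ℂ) ^ (-s)) = (1 - x ^ fdeg K w₀) ^ W.card := by
    rw [finprod_mem_eq_finite_toFinset_prod _ (finite_under (L := L) (w₀.under (𝓞 K))),
      ← Finset.prod_const]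
    refine Finset.prod_congr rfl fun w hw => ?_
    rw [nv_cpow (K := K) w, (hmem w).mp hw, (edeg_fdeg_eq ((hmem w).mp hw)).2]
  rw [hL]
  have hWpos : 0 < W.card := Finset.card_pos.mpr ⟨w₀, (hmem w₀).mpr rfl⟩
  by_cases hram : Ram L (w₀.under (𝓞 K))
  · -- ramified
    have he : edeg K w₀ ≠ 1 := by
      obtain ⟨w, hw, hw1⟩ := hram
      intro h
      apply hw1
      have h2 := (edeg_fdeg_eq (K := K) hw).1
      rw [h, edeg, hw] at h2
      exact h2
    have he' : edeg K w₀ = p := by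
      have h1 : edeg K w₀ ∣ p := by
        rw [← hcard]
        exact Dvd.dvd.mul_left (dvd_mul_right _ _) _
      exact ((Nat.dvd_prime hp).mp h1).resolve_left he
    rw [he'] at hcard
    have h3 : W.card * fdeg K w₀ = 1 := by
      apply Nat.eq_of_mul_eq_mul_left hp.pos
      rw [mul_one]
      calc p * (W.card * fdeg K w₀) = W.card * (p * fdeg K w₀) := by ring
        _ = p := hcard
    have hW1 : W.card = 1 := Nat.eq_one_of_mul_eq_one_right h3
    have hf1 : fdeg K w₀ = 1 := Nat.eq_one_of_mul_eq_one_left h3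
    have h0 : ψ (pI (w₀.under (𝓞 K))) = 0 := by
      apply hψ.ray.eq_zero
      intro hco
      have h4 : (w₀.under (𝓞 K)).asIdeal ∣ 𝔪 := (hψ.ram _).mpr hram
      have h5 : IsUnit (w₀.under (𝓞 K)).asIdeal :=
        hco.isUnit_of_dvd' dvd_rfl h4
      exact (w₀.under (𝓞 K)).isPrime.ne_top (Ideal.isUnit_iff.mp h5)
    rw [hW1, hf1, pow_one, pow_one, h0]
    rw [Finset.prod_eq_one fun j _ => by rw [pow_succ, mul_zero, zero_mul, sub_zero], mul_one]
  · have he : edeg K w₀ = 1 := by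
      by_contra h
      exact hram ⟨w₀, rfl, h⟩
    rw [he, one_mul] at hcard
    have hsplit := hψ.split w₀ hram
    change _ ↔ fdeg K w₀ = 1 at hsplit
    have hco : IsCoprime ((pI (w₀.under (𝓞 K)) : (Ideal (𝓞 K))⁰) : Ideal (𝓞 K)) 𝔪 := by
      change IsCoprime (w₀.under (𝓞 K)).asIdeal 𝔪
      have h4 : ¬ (w₀.under (𝓞 K)).asIdeal ∣ 𝔪 := fun h => hram ((hψ.ram _).mp h)
      rw [Ideal.dvd_iff_le] at h4
      rw [Ideal.isCoprime_iff_sup_eq]
      have hmax : (w₀.under (𝓞 K)).asIdeal.IsMaximal := (w₀.under (𝓞 K)).isMaximal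
      refine hmax.out.2 _ (lt_of_le_of_ne le_sup_left fun h5 => h4 ?_)
      rw [h5]
      exact le_sup_right
    by_cases hf : fdeg K w₀ = 1
    · -- split
      rw [hf, mul_one] at hcard
      rw [hf, pow_one, hcard, hsplit.mpr hf]
      simp only [one_pow, one_mul, Finset.prod_const, Finset.card_range]
      rw [← pow_succ', Nat.sub_add_cancel hp.one_le]
    · -- inert
      have h1 : fdeg K w₀ ∣ p := by
        rw [← hcard]
        exact dvd_mul_left _ _
      have hf' : fdeg K w₀ = p := ((Nat.dvd_prime hp).mp h1).resolve_left hf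
      rw [hf'] at hcard
      have hW1 : W.card = 1 := by
        apply Nat.eq_of_mul_eq_mul_right hp.pos
        rw [hcard, one_mul]
      have hpF : Fact p.Prime := ⟨hp⟩
      have hζ : IsPrimitiveRoot (ψ (pI (w₀.under (𝓞 K)))) p :=
        IsPrimitiveRoot.iff_orderOf.mpr (orderOf_eq_prime (hψ.pow _ hco)
          (fun h => hf (hsplit.mp h)))
      rw [hW1, pow_one, hf', ← prod_one_sub_pow hp.pos hζ x]
      obtain ⟨m, hm⟩ : ∃ m, p = m + 1 := ⟨p - 1, (Nat.sub_add_cancel hp.one_le).symm⟩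
      rw [hm, Nat.add_sub_cancel, Finset.prod_range_succ']
      rw [pow_zero, one_mul, mul_comm]

end Fermat.Agent.Cor.Rel

end
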