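import Fermat.Agent.Corollaries.Rel.Local
import Fermat.Agent.Corollaries.Rel.OfRay
import Fermat.Agent.Corollaries.Rel.Fibre
import Fermat.Agent.Corollaries.Rel.Cond
import Fermat.Agent.Corollaries.CFTP.FieldConv
import Fermat.Agent.LT.B8.Almost

/-!
# The zeta function and the discriminant of a cyclic extension of prime degree

`K` any number field, `L/K` Galois of prime degree `p`, `p ≠ 2` or `K` totally complex.

* `exists_isCharOf`: `L/K` is the class field of a narrow ray class character `ψ` of `K` of order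
  `p`, whose modulus is divisible exactly by the ramified primes;
* `zeta_eq`: `ζ_L(s) = ζ_K(s) ∏_{j = 1}^{p - 1} L(s, ψ^j)`;
* `exists_quot`: `ζ_L / ζ_K` is an entire function without zeros on `Re s ≥ 1` and with infinitely
  many zeros in the critical strip;
* `exists_conductor`: `|d_L| = |d_K|^p N(𝔣)^{p - 1}` where `𝔣` is the conductor of `ψ` (the
  conductor-discriminant formula; Takagi 1920, Hasse 1926);
* `natAbs_discr_eq_iff`: `|d_L| = |d_K|^p` if and only if `L/K` is unramified at all finite places.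
-/

set_option autoImplicit false

noncomputable section

namespace Fermat.Agent.Cor.Rel

open NumberField IsDedekindDomain
open Fermat.Agent.ClassL Fermat.Agent.Classic.Zeta Fermat.Agent.Cor.Ray Fermat.Agent.Cor.RayN
open Fermat.Agent.Cor.RayF
open scoped nonZeroDivisors Classical

section Ram

variable (K L : Type) [Field K] [NumberField K] [Field L] [NumberField L] [Algebra K L]

/-- Only finitely many places are ramified. -/
theorem finite_ram [IsGalois K L] : {v : HeightOneSpectrum (𝓞 K) | Ram L v}.Finite := by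
  refine (Fermat.Agent.LT.B8.finite_ramified (K := K) (L := L) (L ≃ₐ[K] L)).subset ?_
  rintro v ⟨w, hw, h⟩
  exact ⟨⟨w, (Fermat.Agent.CFT.SUnits.under_eq_iff K w v).mp hw⟩, h⟩

end Ram

variable {K : Type} [Field K] [NumberField K] (L : Type) [Field L] [NumberField L] [Algebra K L]
  [IsGalois K L] {p : ℕ}

/-- **A Galois extension of prime degree `p` (`p` odd or `K` totally complex) is the class field of
a ray class character of order `p`, whose modulus is divisible exactly by the ramified primes.** -/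
theorem exists_isCharOf (hp : p.Prime) (hK : p ≠ 2 ∨ IsTotallyComplex K)
    (hL : Module.finrank K L = p) :
    ∃ (𝔪 : Ideal (𝓞 K)) (ψ : (Ideal (𝓞 K))⁰ →* ℂ), IsCharOf L p 𝔪 ψ := by
  have : Fact p.Prime := ⟨hp⟩
  set S := (finite_ram K L).toFinset with hS
  have hmem : ∀ v, v ∈ S ↔ Ram L v := fun v => by
    rw [hS, Set.Finite.mem_toFinset, Set.mem_ofPred_eq]
  obtain ⟨n, η, hη, ⟨v₀, hv₀, hne⟩, hex⟩ := CFTP.exists_ray_of_field (p := p) (L := L) hK hL
    (S := S) fun w hw => by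
      by_contra h
      exact hw ((hmem _).mpr ⟨w, rfl, h⟩)
  obtain ⟨𝔪, ψ, h0, hdiv, hray, hpow, hsplit⟩ := ofRayStmt K p hp S n η hη
  refine ⟨𝔪, ψ, ⟨h0, hray, fun v => (hdiv v).trans (hmem v), hpow, fun w hw => ?_, ?_⟩⟩
  · have hw' : w.under (𝓞 K) ∉ S := fun h => hw ((hmem _).mp h)
    exact (hsplit _ hw').trans (hex w hw').symm
  · refine ⟨pI v₀, ?_, fun h => hne ((hsplit v₀ hv₀).mp h)⟩
    exact isCoprime_of_prime v₀.isPrime v₀.ne_bot fun h => hv₀ ((hdiv v₀).mp h)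

omit [IsGalois K L] in
/-- **`ζ_L(s) = ζ_K(s) ∏ L(s, ψ^j)`** for every character of `L/K`. -/
theorem zetaStmt : ZetaStmt K L := zetaStmt_of (localStmt K L) (fibreStmt K L)

/-- **`ζ_L / ζ_K` is entire**, has no zeros on `Re s ≥ 1` and infinitely many zeros in the critical
strip. -/
theorem exists_quot (hp : p.Prime) (hK : p ≠ 2 ∨ IsTotallyComplex K)
    (hL : Module.finrank K L = p) : ∃ F : ℂ → ℂ, Differentiable ℂ F ∧
      (∀ s : ℂ, s ≠ 1 → zetaK L s = zetaK K s * F s) ∧ (∀ s : ℂ, 1 ≤ s.re → F s ≠ 0) ∧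
      {s : ℂ | 0 < s.re ∧ s.re < 1 ∧ F s = 0}.Infinite := by
  obtain ⟨𝔪, ψ, h⟩ := exists_isCharOf L hp hK hL
  exact exists_quot_of (zetaStmt L) hp inferInstance hL h

/-- **The conductor-discriminant formula**: `L/K` is the class field of a primitive ray class
character `ψ` with conductor `𝔣`, `ζ_L(s) = ζ_K(s) ∏ L(s, ψ^j)`, and
`|d_L| = |d_K|^p N(𝔣)^{p - 1}`. -/
theorem exists_conductor (hp : p.Prime) (hK : p ≠ 2 ∨ IsTotallyComplex K)
    (hL : Module.finrank K L = p) :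
    ∃ (𝔣 : Ideal (𝓞 K)) (ψ : (Ideal (𝓞 K))⁰ →* ℂ), IsCharOf L p 𝔣 ψ ∧ IsPrimC 𝔣 ψ ∧
      (∀ s : ℂ, 1 < s.re → dedekindZeta L s =
        dedekindZeta K s * ∏ j ∈ Finset.range (p - 1), Ray.Ls (ψ ^ (j + 1)) s) ∧
      (discr L).natAbs = (discr K).natAbs ^ p * Ideal.absNorm 𝔣 ^ (p - 1) := by
  obtain ⟨𝔪, ψ, h⟩ := exists_isCharOf L hp hK hL
  obtain ⟨⟨𝔣, ψ'⟩, ⟨hle, h', hprim, hag⟩, -⟩ := exists_unique_primitive h.ne_bot h.ray
  dsimp only at hle h' hprim hag
  obtain ⟨hd, hram⟩ := condStmt_of (zetaStmt L) p hp hK inferInstance hL 𝔪 ψ h 𝔣 ψ' hle h' hprim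
    hag
  have hI : IsCharOf L p 𝔣 ψ' := by
    refine ⟨fun h0 => h.ne_bot (le_bot_iff.mp (h0 ▸ hle)), h', hram,
      fun I hI => pow_prim h hle h' hag hI, fun w hw => ?_, ?_⟩
    · have hc : IsCoprime (w.under (𝓞 K)).asIdeal 𝔪 :=
        isCoprime_of_prime (w.under (𝓞 K)).isPrime (w.under (𝓞 K)).ne_bot
          fun h1 => hw ((h.ram _).mp h1)
      rw [← hag (pI (w.under (𝓞 K))) hc]
      exact h.split w hw
    · obtain ⟨I, hI, h1⟩ := h.ne_one
      exact ⟨I, isCoprime_mono hle hI, by rwa [← hag I hI]⟩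
  exact ⟨𝔣, ψ', hI, hprim, zetaStmt L p hp inferInstance hL 𝔣 ψ' hI, hd⟩

/-- The discriminant of a Galois extension of prime degree (`p` odd or `K` totally complex). -/
theorem exists_ideal_discr (hp : p.Prime) (hK : p ≠ 2 ∨ IsTotallyComplex K)
    (hL : Module.finrank K L = p) :
    ∃ 𝔣 : Ideal (𝓞 K), 𝔣 ≠ ⊥ ∧ (∀ v : HeightOneSpectrum (𝓞 K), v.asIdeal ∣ 𝔣 ↔ Ram L v) ∧
      (discr L).natAbs = (discr K).natAbs ^ p * Ideal.absNorm 𝔣 ^ (p - 1) := by
  obtain ⟨𝔣, ψ, h, -, -, hd⟩ := exists_conductor L hp hK hL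
  exact ⟨𝔣, h.ne_bot, h.ram, hd⟩

/-- **`|d_L| = |d_K|^p` if and only if `L/K` is unramified at all finite places.** -/
theorem natAbs_discr_eq_iff (hp : p.Prime) (hK : p ≠ 2 ∨ IsTotallyComplex K)
    (hL : Module.finrank K L = p) : (discr L).natAbs = (discr K).natAbs ^ p ↔
      ∀ w : HeightOneSpectrum (𝓞 L),
        (w.under (𝓞 K)).asIdeal.ramificationIdx' w.asIdeal = 1 := by
  obtain ⟨𝔣, h0, hram, hd⟩ := exists_ideal_discr L hp hK hL
  have h1 : (discr L).natAbs = (discr K).natAbs ^ p ↔ 𝔣 = ⊤ := by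
    have hK0 : 0 < (discr K).natAbs ^ p :=
      pow_pos (Int.natAbs_pos.mpr (discr_ne_zero K)) _
    have hp1 : p - 1 ≠ 0 := by
      have := hp.two_le
      omega
    rw [hd, Nat.mul_eq_left hK0.ne', Nat.pow_eq_one, or_iff_left hp1,
      Ideal.absNorm_eq_one_iff]
  rw [h1]
  constructor
  · intro h w
    by_contra hw
    have h2 := (hram (w.under (𝓞 K))).mpr ⟨w, rfl, hw⟩
    rw [h, ← Ideal.one_eq_top] at h2
    exact (w.under (𝓞 K)).isPrime.ne_top (Ideal.isUnit_iff.mp (isUnit_of_dvd_one h2))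
  · intro h
    by_contra hne
    obtain ⟨M, hM, hle⟩ := Ideal.exists_le_maximal 𝔣 hne
    have hMb : M ≠ ⊥ := fun h2 => h0 (le_bot_iff.mp (h2 ▸ hle))
    obtain ⟨w, hw, hw1⟩ := (hram ⟨M, hM.isPrime, hMb⟩).mp (Ideal.dvd_iff_le.mpr hle)
    apply hw1
    rw [← hw]
    exact h w

end Fermat.Agent.Cor.Rel

end
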