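import Fermat.Agent.Corollaries.Rel.All

/-!
# Dedekind's conjecture for solvable Galois extensions

`exists_quot_solvable`: if `L/K` is a Galois extension of number fields with solvable Galois group,
`L ≠ K`, then `ζ_L / ζ_K` is an entire function, without zeros on `Re s ≥ 1` and with infinitely
many zeros in the critical strip.  (A chain of Galois extensions of prime degree, `Rel.All`.)
-/

set_option autoImplicit false

noncomputable section

namespace Fermat.Agent.Cor.Rel

open NumberField IsDedekindDomain
open Fermat.Agent.Classic.Zeta Fermat.Agent.Cor.Ray Fermat.Agent.Cor.RayN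
open scoped commutatorElement

/-- A finite solvable group `≠ 1` has a normal subgroup of prime index. -/
theorem exists_normal_index_prime (G : Type*) [Group G] [Finite G] [Nontrivial G] [Group.IsSolvable G] :
    ∃ N : Subgroup G, N.Normal ∧ N.index.Prime := by
  have h1 : commutator G ≠ ⊤ := (Group.IsSolvable.commutator_lt_top_of_nontrivial G).ne
  obtain ⟨H, hH, hle⟩ := (eq_top_or_exists_le_coatom (commutator G)).resolve_left h1
  have hN : H.Normal := ⟨fun n hn g => by
    have h2 : ⁅g, n⁆ ∈ H :=
      hle (Subgroup.commutator_mem_commutator (Subgroup.mem_top g) (Subgroup.mem_top n))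
    have h3 : g * n * g⁻¹ = ⁅g, n⁆ * n := by
      rw [commutatorElement_def]
      group
    rw [h3]
    exact H.mul_mem h2 hn⟩
  refine ⟨H, hN, ?_⟩
  have hc : Nat.card (G ⧸ H) ≠ 1 := by
    rw [← Subgroup.index_eq_card, Ne, Subgroup.index_eq_one]
    exact hH.1
  obtain ⟨p, hp, hpd⟩ := Nat.exists_prime_and_dvd hc
  have := Fact.mk hp
  obtain ⟨x, hx⟩ := exists_prime_orderOf_dvd_card' p hpd
  have hx1 : x ≠ 1 := by
    rintro rfl
    rw [orderOf_one] at hx
    exact hp.one_lt.ne hx
  have h4 : (Subgroup.zpowers x).comap (QuotientGroup.mk' H) = ⊤ := by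
    refine hH.2 _ (lt_of_le_of_ne ?_ ?_)
    · intro g hg
      rw [Subgroup.mem_comap, QuotientGroup.mk'_apply, (QuotientGroup.eq_one_iff g).mpr hg]
      exact one_mem _
    · intro h5
      obtain ⟨g, rfl⟩ := QuotientGroup.mk'_surjective H x
      have h6 : g ∈ H := by
        rw [h5]
        exact Subgroup.mem_zpowers _
      exact hx1 ((QuotientGroup.eq_one_iff g).mpr h6)
  have h7 : Subgroup.zpowers x = ⊤ := by
    rw [← Subgroup.comap_top (QuotientGroup.mk' H)] at h4
    exact Subgroup.comap_injective (QuotientGroup.mk'_surjective H) h4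
  rw [Subgroup.index_eq_card, ← orderOf_eq_card_of_zpowers_eq_top h7, hx]
  exact hp

theorem exists_quot_solvable_aux (n : ℕ) : 1 < n → ∀ (K L : Type) [Field K] [NumberField K]
    [Field L] [NumberField L] [Algebra K L] [IsGalois K L] [Group.IsSolvable (L ≃ₐ[K] L)],
    Module.finrank K L = n → ∃ F : ℂ → ℂ, Differentiable ℂ F ∧
      (∀ s : ℂ, s ≠ 1 → zetaK L s = zetaK K s * F s) ∧ (∀ s : ℂ, 1 ≤ s.re → F s ≠ 0) ∧
      {s : ℂ | 0 < s.re ∧ s.re < 1 ∧ F s = 0}.Infinite := by
  induction n using Nat.strong_induction_on with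
  | _ n ih =>
    intro hn K L _ _ _ _ _ _ _ hL
    have hcard : Nat.card (L ≃ₐ[K] L) = n := by rw [IsGalois.card_aut_eq_finrank, hL]
    have : Nontrivial (L ≃ₐ[K] L) := Finite.one_lt_card_iff_nontrivial.mp (by omega)
    obtain ⟨N, hN, hp⟩ := exists_normal_index_prime (L ≃ₐ[K] L)
    have h1 : Module.finrank (IntermediateField.fixedField N) L = Nat.card N :=
      IntermediateField.finrank_fixedField_eq_card N
    have h2 : Module.finrank K (IntermediateField.fixedField N) *
        Module.finrank (IntermediateField.fixedField N) L = n := by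
      rw [Module.finrank_mul_finrank, hL]
    have h3 : N.index * Nat.card N = n := by
      rw [mul_comm, Subgroup.card_mul_index, hcard]
    have h4 : 0 < Nat.card N := Nat.card_pos
    have h5 : Module.finrank K (IntermediateField.fixedField N) = N.index := by
      rw [h1, ← h3] at h2
      exact Nat.eq_of_mul_eq_mul_right h4 h2
    have hsol : Group.IsSolvable (L ≃ₐ[IntermediateField.fixedField N] L) :=
      Group.isSolvable_of_surjective (f := (IntermediateField.subgroupEquivAlgEquiv N).toMonoidHom)
        (IntermediateField.subgroupEquivAlgEquiv N).surjective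
    by_cases hm : Nat.card N = 1
    · rw [hm, mul_one] at h3
      rw [h3] at hp
      exact exists_quot_all L hp hL
    · have h6 : 1 < Nat.card N := by omega
      have h7 : Nat.card N < n := by
        rw [← h3]
        have := hp.two_le
        nlinarith
      obtain ⟨F₂, d₂, e₂, n₂, -⟩ := ih _ h7 h6 (IntermediateField.fixedField N) L h1
      obtain ⟨F₁, d₁, e₁, n₁, i₁⟩ := exists_quot_all (IntermediateField.fixedField N) hp h5
      refine ⟨fun s => F₁ s * F₂ s, d₁.mul d₂, fun s hs => ?_,
        fun s hs => mul_ne_zero (n₁ s hs) (n₂ s hs), i₁.mono ?_⟩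
      · rw [e₂ s hs, e₁ s hs, mul_assoc]
      · rintro s ⟨a, b, c⟩
        exact ⟨a, b, by
          change F₁ s * F₂ s = 0
          rw [c, zero_mul]⟩

/-- **Dedekind's conjecture for solvable Galois extensions**: `L/K` Galois with solvable Galois
group, `L ≠ K`: `ζ_L / ζ_K` is an entire function, has no zeros on `Re s ≥ 1` and infinitely many
zeros in the critical strip. -/
theorem exists_quot_solvable (K L : Type) [Field K] [NumberField K] [Field L] [NumberField L]
    [Algebra K L] [IsGalois K L] [Group.IsSolvable (L ≃ₐ[K] L)] (hL : 1 < Module.finrank K L) :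
    ∃ F : ℂ → ℂ, Differentiable ℂ F ∧
      (∀ s : ℂ, s ≠ 1 → zetaK L s = zetaK K s * F s) ∧ (∀ s : ℂ, 1 ≤ s.re → F s ≠ 0) ∧
      {s : ℂ | 0 < s.re ∧ s.re < 1 ∧ F s = 0}.Infinite :=
  exists_quot_solvable_aux _ hL K L rfl

end Fermat.Agent.Cor.Rel

end
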