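import Fermat.Agent.Corollaries.Rel.Defs
import Fermat.Agent.Corollaries.RayF.ZerosAll
import Fermat.Agent.Corollaries.ZetaK.EulerGroup

/-!
# The zeta function of a cyclic extension of prime degree

`zetaStmt_of`: `ζ_L(s) = ζ_K(s) ∏_{j = 1}^{p - 1} L(s, ψ^j)` for `Re s > 1`, from the Euler factors;
`exists_quot`: `ζ_L / ζ_K` is entire and has no zeros on `Re s ≥ 1`.
-/

set_option autoImplicit false

noncomputable section

namespace Fermat.Agent.Cor.Rel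

open NumberField IsDedekindDomain
open Fermat.Agent.ClassL Fermat.Agent.Cor.Ray Fermat.Agent.Cor.RayN
open scoped nonZeroDivisors Classical

section One

variable {K : Type} [Field K] [NumberField K]

/-- places and primes -/
def prEquiv (K : Type) [Field K] [NumberField K] : HeightOneSpectrum (𝓞 K) ≃ Pr K where
  toFun v := ⟨pI v, v.prime⟩
  invFun P := ⟨((P.1 : (Ideal (𝓞 K))⁰) : Ideal (𝓞 K)), Ideal.isPrime_of_prime P.2,
    nonZeroDivisors.coe_ne_zero P.1⟩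
  left_inv _ := rfl
  right_inv _ := rfl

theorem exp_neg_log {z : ℂ} (h : 1 - z ≠ 0) : Complex.exp (-Complex.log (1 - z)) = (1 - z)⁻¹ := by
  rw [Complex.exp_neg, Complex.exp_log h]

/-- the Euler product of `L(s, ψ)` over the places -/
theorem hasProd_Ls {ψ : (Ideal (𝓞 K))⁰ →* ℂ} (hψ : ∀ I, ‖ψ I‖ ≤ 1) {s : ℂ} (hs : 1 < s.re) :
    HasProd (fun v : HeightOneSpectrum (𝓞 K) => (1 - ψ (pI v) * (nv v : ℂ) ^ (-s))⁻¹)
      (Ray.Ls ψ s) := by
  have h1 := (summable_log (Psi.summable_norm_psHom (K := K) hψ hs)).hasSum.cexp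
  rw [Psi.exp_tsum_log_ps hψ hs] at h1
  have h2 : (Complex.exp ∘ fun P : Pr K => -Complex.log (1 - Psi.psHom ψ s P.1)) =
      fun P : Pr K => (1 - Psi.psHom ψ s P.1)⁻¹ := by
    funext P
    exact exp_neg_log (one_sub_ne_zero (Psi.summable_norm_psHom hψ hs) P)
  rw [h2] at h1
  exact (prEquiv K).hasProd_iff.mpr h1

/-- the Euler product of `ζ_K(s)` over the places -/
theorem hasProd_zeta {s : ℂ} (hs : 1 < s.re) :
    HasProd (fun v : HeightOneSpectrum (𝓞 K) => (1 - (nv v : ℂ) ^ (-s))⁻¹)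
      (dedekindZeta K s) := by
  have h1 := hasProd_Ls (K := K) (ψ := 1) (fun I => by simp) hs
  have h2 : Ray.Ls (1 : (Ideal (𝓞 K))⁰ →* ℂ) s = dedekindZeta K s := by
    rw [Ray.Ls]
    refine (tsum_congr fun I => ?_).trans (Classic.Zeta.hasSum_term hs).tsum_eq.symm
    rw [MonoidHom.one_apply, one_mul]
  rw [h2] at h1
  simpa only [MonoidHom.one_apply, one_mul] using h1

end One

variable {K L : Type} [Field K] [NumberField K] [Field L] [NumberField L] [Algebra K L]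

/-- (P4) -/
theorem zetaStmt_of (hL : LocalStmt K L) (hF : FibreStmt K L) : ZetaStmt K L := by
  intro p hp hg hd 𝔪 ψ h s hs
  have h1 := hF s hs
  have h2 : HasProd (fun v : HeightOneSpectrum (𝓞 K) => (1 - (nv v : ℂ) ^ (-s))⁻¹ *
      ∏ j ∈ Finset.range (p - 1), (1 - (ψ ^ (j + 1)) (pI v) * (nv v : ℂ) ^ (-s))⁻¹)
      (dedekindZeta K s * ∏ j ∈ Finset.range (p - 1), Ray.Ls (ψ ^ (j + 1)) s) := by
    refine (hasProd_zeta hs).mul (hasProd_prod fun j _ => hasProd_Ls (fun I => ?_) hs)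
    rw [MonoidHom.pow_apply, norm_pow]
    exact pow_le_one₀ (norm_nonneg _) (h.ray.norm_le I)
  refine h1.unique ?_
  convert h2 using 2 with v
  rw [hL p hp hg hd 𝔪 ψ h v s, mul_inv, ← Finset.prod_inv_distrib]
  rfl

/-! ### The quotient -/

/-- the powers of `ψ` -/
theorem IsCharOf.pow_ray {p : ℕ} {𝔪 : Ideal (𝓞 K)} {ψ : (Ideal (𝓞 K))⁰ →* ℂ}
    (h : IsCharOf L p 𝔪 ψ) (j : ℕ) : NRayChar 𝔪 (ψ ^ (j + 1)) where
  norm_le I := by
    rw [MonoidHom.pow_apply, norm_pow]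
    exact pow_le_one₀ (norm_nonneg _) (h.ray.norm_le I)
  eq_zero I hI := by
    rw [MonoidHom.pow_apply, h.ray.eq_zero I hI, zero_pow (Nat.succ_ne_zero j)]
  cong I a hI ha hpos := by
    rw [MonoidHom.pow_apply, h.ray.cong I a hI ha hpos, one_pow]

theorem IsCharOf.pow_ne {p : ℕ} (hp : p.Prime) {𝔪 : Ideal (𝓞 K)} {ψ : (Ideal (𝓞 K))⁰ →* ℂ}
    (h : IsCharOf L p 𝔪 ψ) {j : ℕ} (hj : j + 1 < p) :
    ∃ I : (Ideal (𝓞 K))⁰, IsCoprime (I : Ideal (𝓞 K)) 𝔪 ∧ (ψ ^ (j + 1)) I ≠ 1 := by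
  obtain ⟨I, hI, h1⟩ := h.ne_one
  refine ⟨I, hI, fun h2 => h1 ?_⟩
  rw [MonoidHom.pow_apply] at h2
  have h3 := h.pow I hI
  have hc : Nat.Coprime (j + 1) p := by
    rw [Nat.coprime_comm, Nat.Prime.coprime_iff_not_dvd hp]
    exact fun h4 => absurd (Nat.le_of_dvd (Nat.succ_pos j) h4) (not_le.mpr hj)
  have h4 := orderOf_dvd_of_pow_eq_one h2
  have h5 := orderOf_dvd_of_pow_eq_one h3
  have h6 := Nat.dvd_gcd h4 h5
  rw [hc] at h6
  exact orderOf_eq_one_iff.mp (Nat.dvd_one.mp h6)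

/-- **`ζ_L / ζ_K` is entire and has no zeros on `Re s ≥ 1`** -/
theorem exists_quot_of (hZ : ZetaStmt K L) {p : ℕ} (hp : p.Prime) (hg : IsGalois K L)
    (hd : Module.finrank K L = p) {𝔪 : Ideal (𝓞 K)} {ψ : (Ideal (𝓞 K))⁰ →* ℂ}
    (h : IsCharOf L p 𝔪 ψ) : ∃ F : ℂ → ℂ, Differentiable ℂ F ∧
      (∀ s : ℂ, s ≠ 1 → zetaK L s = zetaK K s * F s) ∧ (∀ s : ℂ, 1 ≤ s.re → F s ≠ 0) ∧
      {s : ℂ | 0 < s.re ∧ s.re < 1 ∧ F s = 0}.Infinite := by
  have h1 : ∀ j : ℕ, j + 1 < p → ∃ L : ℂ → ℂ, Differentiable ℂ L ∧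
      (∀ s : ℂ, 1 < s.re → L s = Ray.Ls (ψ ^ (j + 1)) s) ∧ ∀ s : ℂ, 1 ≤ s.re → L s ≠ 0 :=
    fun j hj => nonVanNStmt K 𝔪 h.ne_bot _ (h.pow_ray j) (h.pow_ne hp hj)
  have h2 : ∀ j : ℕ, ∃ L : ℂ → ℂ, j + 1 < p → Differentiable ℂ L ∧
      (∀ s : ℂ, 1 < s.re → L s = Ray.Ls (ψ ^ (j + 1)) s) ∧ ∀ s : ℂ, 1 ≤ s.re → L s ≠ 0 := by
    intro j
    by_cases hj : j + 1 < p
    · obtain ⟨L, hL⟩ := h1 j hj
      exact ⟨L, fun _ => hL⟩
    · exact ⟨0, fun h => absurd h hj⟩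
  choose F hF using h2
  have hlt : ∀ {j : ℕ}, j ∈ Finset.range (p - 1) → j + 1 < p := fun {j} hj => by
    rw [Finset.mem_range] at hj
    omega
  have hFd : Differentiable ℂ fun s => ∏ j ∈ Finset.range (p - 1), F j s :=
    Differentiable.fun_finsetProd fun j hj => (hF j (hlt hj)).1
  have hdL : ∀ s : ℂ, s ≠ 1 → DifferentiableAt ℂ (zetaK L) s := fun s h1 =>
    differentiableAt_LF (K := L) (fun _ => 1) h1
  have hdK : ∀ s : ℂ, s ≠ 1 → DifferentiableAt ℂ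
      (fun s => zetaK K s * ∏ j ∈ Finset.range (p - 1), F j s) s := fun s h1 =>
    (differentiableAt_LF (K := K) (fun _ => 1) h1).mul (hFd s)
  have key : ∀ s : ℂ, s ≠ 0 → s ≠ 1 →
      zetaK L s = zetaK K s * ∏ j ∈ Finset.range (p - 1), F j s := by
    intro s hs0 hs1
    refine RayF.Glue.eq_of_eqOn (f := zetaK L)
      (g := fun s => zetaK K s * ∏ j ∈ Finset.range (p - 1), F j s)
      (fun s _ h1 => hdL s h1) (fun s _ h1 => hdK s h1)
      (RayF.Glue.isOpen_re_gt 1) (z := 2) (by simp) (by norm_num) (by norm_num)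
      (fun s hs => ?_) hs0 hs1
    have hs' : 1 < s.re := hs
    change zetaK L s = zetaK K s * ∏ j ∈ Finset.range (p - 1), F j s
    rw [zetaK_eq L hs', zetaK_eq K hs', hZ p hp hg hd 𝔪 ψ h s hs']
    congr 1
    exact Finset.prod_congr rfl fun j hj => ((hF j (hlt hj)).2.1 s hs').symm
  refine ⟨fun s => ∏ j ∈ Finset.range (p - 1), F j s, hFd, fun s hs => ?_, fun s hs => ?_, ?_⟩
  · by_cases hs0 : s = 0
    · subst hs0
      have e1 := (hdL 0 zero_ne_one).continuousAt.tendsto.mono_left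
        (nhdsWithin_le_nhds (s := {(0 : ℂ)}ᶜ))
      have e2 := (hdK 0 zero_ne_one).continuousAt.tendsto.mono_left
        (nhdsWithin_le_nhds (s := {(0 : ℂ)}ᶜ))
      refine tendsto_nhds_unique e1 (e2.congr' ?_)
      have e3 : ({1}ᶜ : Set ℂ) ∈ nhds (0 : ℂ) :=
        isOpen_compl_singleton.mem_nhds (by simp)
      filter_upwards [self_mem_nhdsWithin, mem_nhdsWithin_of_mem_nhds e3] with z hz hz1
      exact (key z hz hz1).symm
    · exact key s hs0 hs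
  · exact Finset.prod_ne_zero_iff.mpr fun j hj => (hF j (hlt hj)).2.2 s hs
  · have h0 : 0 ∈ Finset.range (p - 1) := by
      rw [Finset.mem_range]
      have := hp.two_le
      omega
    have h3 := hF 0 (hlt h0)
    refine (RayF.infinite_zeros_every h.ne_bot (h.pow_ray 0) (L := F 0) (fun s _ => h3.1 s)
      h3.2.1).mono ?_
    rintro s ⟨h4, h5, h6⟩
    exact ⟨h4, h5, Finset.prod_eq_zero h0 h6⟩

end Fermat.Agent.Cor.Rel

end
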